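/-
GATE-L / L5-III (T1) (helper28): THICKNESS ONE AT A NODE, POINTWISE — the level `qM` half of the
ETA-route (board 2469 / 2677 (V2)-III / ruling 2874), in hypothesis form; Mathlib + helper92's
`GL/Alg/ThickCount.lean` only.

`C` = coordinate ring of the smooth component (Dedekind), `P` a maximal ideal of `C` (a node),
`J ⊆ C` the node ideal (`J ⊆ rd₁(P'₂)`), `g̃ = rd₁ g` the reduction of the eta quotient
`g = Δ(z)/Δ(qz)` (`= pH(j̃)`), `n = 12`.

* `pow_notMem_pow_succ` : `a ∉ P²` ⟹ `aⁿ ∉ Pⁿ⁺¹` (Dedekind).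
* `exists_pow_eq_mul_notMem_of_mem_pow` : the POINTWISE hand-over to the pow trick:
  (I) `g̃ ∣ aⁿ` for all `a ∈ J`, (II) `J ⊄ P²`, (III) `g̃ ∈ Pⁿ` ⟹ `∃ a ∈ J, aⁿ = g̃ c`, `c ∉ P`.
  No count, no radical hypothesis, nothing about the other nodes.
* `not_le_sq_of_isRadical'` : (II) from `J` radical, `J ≠ ⊥`.
* `aeval_mem_pow` : (III) from a root multiplicity: `(X - a)^μ ∣ pH`, `j̃ - a ∈ P^c`
  ⟹ `pH(j̃) ∈ P^(μ c)` (`μ = 12, c = 1` at `a ∉ {0, 1728}`: helper63 `thick_series`;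
  `μ c = 4·3, 6·2` at `a = 0, 1728`: helper75 2815).
* `mem_pow_of_span_eq_pow` : (III) from the count form `(g̃) = Jⁿ` (helper92
  `span_eq_pow_of_card_le`).
* `mem_of_mem_of_map_le` : nodes are zeros of `g̃` for free (`g ∈ P'₂` ⟹ `g̃ ∈ rd₁(P'₂)`).
* **`exists_lift_pow_eq`** : the same with the lift to the level-`qM` ring `B'`:
  `∃ y ∈ P'₂, ∃ c : B', yⁿ = g c ∧ rd₁ c ∉ P`.
* `map_eq_span_singleton_at_node` : hence `P'₂ · O'_{x'} = (y)` at the node (helper92 pow trick).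
-/
import Fermat.Agent.GL.Alg.ThickCount

set_option autoImplicit false

namespace Fermat.Agent.GL.EtaReg

open UniqueFactorizationMonoid

section Dedekind

variable {C : Type*} [CommRing C] [IsDedekindDomain C]

/-- in a Dedekind domain, `a ∉ P ^ 2` implies `a ^ n ∉ P ^ (n + 1)` (`P` a maximal ideal). -/
theorem pow_notMem_pow_succ {P : Ideal C} (hP : P.IsMaximal) {a : C} (ha : a ∉ P ^ 2) (n : ℕ) :
    a ^ n ∉ P ^ (n + 1) := by
  intro hmem
  have hPprime : P.IsPrime := hP.isPrime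
  by_cases haP : a ∈ P
  · -- `ord_P a = 1`
    have ha0 : a ≠ 0 := fun h0 => ha (h0 ▸ Ideal.zero_mem _)
    have hP0 : P ≠ ⊥ := by
      rintro rfl
      exact ha0 (by simpa using haP)
    have hsp0 : Ideal.span {a} ≠ ⊥ := by
      rw [Ne, Ideal.span_singleton_eq_bot]
      exact ha0
    classical
    have hcount1 : Multiset.count P (normalizedFactors (Ideal.span {a})) = 1 :=
      Ideal.count_normalizedFactors_eq
        (by rw [pow_one]; exact (Ideal.span_singleton_le_iff_mem P).mpr haP)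
        (by rw [Ideal.span_singleton_le_iff_mem]; exact ha)
    have hcountn : Multiset.count P (normalizedFactors (Ideal.span {a} ^ n)) = n := by
      rw [normalizedFactors_pow, Multiset.count_nsmul, hcount1, mul_one]
    have h1 : Ideal.span {a} ^ n ≤ P ^ (n + 1) := by
      rw [Ideal.span_singleton_pow, Ideal.span_singleton_le_iff_mem]
      exact hmem
    have hge := Ideal.count_le_of_ideal_ge h1 (pow_ne_zero n hsp0) P
    have hPirr : Irreducible P := (Ideal.prime_of_isPrime hP0 hPprime).irreducible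
    rw [hcountn, normalizedFactors_pow, Multiset.count_nsmul, normalizedFactors_irreducible hPirr,
      normalize_eq, Multiset.count_singleton_self] at hge
    omega
  · -- `a ∉ P`
    have h1 : a ^ n ∈ P := Ideal.pow_le_self (Nat.succ_ne_zero n) hmem
    exact haP (hPprime.mem_of_pow_mem n h1)

/-- **pointwise thickness from integrality + order** (the hand-over to the pow trick at ONE node):
if `g ∣ a ^ n` for all `a ∈ J`, some element of `J` has at most a simple zero at `P`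
(`J ⊄ P ^ 2`), and `g ∈ P ^ n`, then there is `a ∈ J` with `a ^ n = g * c`, `c ∉ P`. -/
theorem exists_pow_eq_mul_notMem_of_mem_pow {J P : Ideal C} {g : C} {n : ℕ} (hP : P.IsMaximal)
    (hJP2 : ¬ J ≤ P ^ 2) (hI : ∀ a ∈ J, g ∣ a ^ n) (hg : g ∈ P ^ n) :
    ∃ a ∈ J, ∃ c : C, a ^ n = g * c ∧ c ∉ P := by
  rw [SetLike.not_le_iff_exists] at hJP2
  obtain ⟨a, haJ, haP⟩ := hJP2
  obtain ⟨c, hc⟩ := hI a haJ
  refine ⟨a, haJ, c, hc, fun hcP => ?_⟩
  apply pow_notMem_pow_succ hP haP n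
  rw [hc, pow_succ]
  exact Ideal.mul_mem_mul hg hcP

/-- (II) from a radical node ideal. -/
theorem not_le_sq_of_isRadical' {J : Ideal C} (hJ0 : J ≠ ⊥) (hJ : J.IsRadical) {P : Ideal C}
    (hP : P.IsMaximal) : ¬ J ≤ P ^ 2 :=
  ThickCount.not_le_sq_of_isRadical hJ0 hJ P hP.ne_top

omit [IsDedekindDomain C] in
/-- (III) from the count form `(g) = J ^ n`. -/
theorem mem_pow_of_span_eq_pow {J P : Ideal C} {g : C} {n : ℕ}
    (heq : Ideal.span {g} = J ^ n) (hle : J ≤ P) : g ∈ P ^ n := by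
  have h1 : g ∈ Ideal.span {g} := Ideal.mem_span_singleton_self g
  rw [heq] at h1
  exact Ideal.pow_right_mono hle n h1

end Dedekind

section Aeval

variable {R C : Type*} [CommRing R] [CommRing C] [Algebra R C]

/-- (III) from a root multiplicity: if `(X - a) ^ μ ∣ pH` and `j - a ∈ P ^ c` then
`pH(j) ∈ P ^ (μ * c)`. -/
theorem aeval_mem_pow {pH : Polynomial R} {a : R} {μ : ℕ}
    (hdiv : (Polynomial.X - Polynomial.C a) ^ μ ∣ pH) {j : C} {P : Ideal C} {c : ℕ}
    (hj : j - algebraMap R C a ∈ P ^ c) : Polynomial.aeval j pH ∈ P ^ (μ * c) := by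
  obtain ⟨r, rfl⟩ := hdiv
  rw [map_mul, map_pow, map_sub, Polynomial.aeval_X, Polynomial.aeval_C, mul_comm μ c, pow_mul]
  exact Ideal.mul_mem_right _ _ (Ideal.pow_mem_pow hj μ)

/-- (III) at a root of full multiplicity `n` where `j - a ∈ P` (`c = 1`). -/
theorem aeval_mem_pow_of_rootMultiplicity {pH : Polynomial R} {a : R} {n : ℕ}
    (hmult : pH.rootMultiplicity a = n) {j : C} {P : Ideal C}
    (hj : j - algebraMap R C a ∈ P) : Polynomial.aeval j pH ∈ P ^ n := by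
  have h1 := aeval_mem_pow (pH := pH) (a := a) (μ := n)
    (by rw [← hmult]; exact Polynomial.pow_rootMultiplicity_dvd pH a)
    (j := j) (P := P) (c := 1) (by rwa [pow_one])
  rwa [mul_one] at h1

end Aeval

section Lift

variable {B' C : Type*} [CommRing B'] [CommRing C]

/-- nodes are zeros of `g̃` for free: `g ∈ P'₂` and `rd₁(P'₂) ⊆ J` give `rd₁ g ∈ J`. -/
theorem mem_of_mem_of_map_le (rd1 : B' →+* C) {P2' : Ideal B'} {J : Ideal C}
    (hle : ∀ y ∈ P2', rd1 y ∈ J) {g : B'} (hg : g ∈ P2') : rd1 g ∈ J := hle g hg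

variable [IsDedekindDomain C]

/-- **the pointwise thickness statement with the lift to `B'`.**  `rd1 : B' → C` the reduction
along the first component, `P2'` the vertical prime of the second component, `J ⊆ rd1 (P2')`,
(I) `g ∣ z ^ n` in `B'` for all `z ∈ P2'`, (II) `J ⊄ P ^ 2`, (III) `rd1 g ∈ P ^ n`, `rd1 g ≠ 0`.
Then some `y ∈ P2'` has `y ^ n = g * c` with `rd1 c ∉ P`. -/
theorem exists_lift_pow_eq (rd1 : B' →+* C) (P2' : Ideal B') {J P : Ideal C} {g : B'} {n : ℕ}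
    (hJ : ∀ a ∈ J, ∃ y ∈ P2', rd1 y = a) (hdiv : ∀ z ∈ P2', g ∣ z ^ n)
    (hP : P.IsMaximal) (hJP2 : ¬ J ≤ P ^ 2) (hg : rd1 g ∈ P ^ n) (hg0 : rd1 g ≠ 0) :
    ∃ y ∈ P2', ∃ c : B', y ^ n = g * c ∧ rd1 c ∉ P := by
  have hI : ∀ a ∈ J, rd1 g ∣ a ^ n := by
    intro a ha
    obtain ⟨y, hy, rfl⟩ := hJ a ha
    obtain ⟨c, hc⟩ := hdiv y hy
    exact ⟨rd1 c, by rw [← map_pow, hc, map_mul]⟩
  obtain ⟨a, haJ, c', hc', hc'P⟩ := exists_pow_eq_mul_notMem_of_mem_pow hP hJP2 hI hg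
  obtain ⟨y, hy, rfl⟩ := hJ a haJ
  obtain ⟨c, hc⟩ := hdiv y hy
  refine ⟨y, hy, c, hc, ?_⟩
  have h1 : rd1 g * rd1 c = rd1 g * c' := by
    rw [← map_mul, ← hc, map_pow, hc']
  rwa [mul_left_cancel₀ hg0 h1]

end Lift

section Node

variable {B' C : Type*} [CommRing B'] [IsDomain B'] [IsIntegrallyClosed B'] [CommRing C]
  [IsDedekindDomain C]

/-- **`P'₂` is principal at the node** (thickness one, level `qM`): with the hypotheses of
`exists_lift_pow_eq`, `x'` a prime of `B'` containing the kernel direction of `P`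
(`c ∈ x' → rd1 c ∈ P`) and `O'` the localisation of `B'` at `x'`: `P'₂ · O' = (y)`. -/
theorem map_eq_span_singleton_at_node (rd1 : B' →+* C) (P2' : Ideal B') {J P : Ideal C} {g : B'}
    {n : ℕ} (hn : n ≠ 0)
    (hJ : ∀ a ∈ J, ∃ y ∈ P2', rd1 y = a) (hdiv : ∀ z ∈ P2', g ∣ z ^ n)
    (hP : P.IsMaximal) (hJP2 : ¬ J ≤ P ^ 2) (hg : rd1 g ∈ P ^ n) (hg0 : rd1 g ≠ 0)
    (x' : Ideal B') [x'.IsPrime] (hx' : ∀ c ∈ x', rd1 c ∈ P)
    (O' : Type*) [CommRing O'] [Algebra B' O'] [IsLocalization.AtPrime O' x'] :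
    ∃ y ∈ P2', P2'.map (algebraMap B' O') = Ideal.span {algebraMap B' O' y} := by
  obtain ⟨y, hy, c, hyc, hc⟩ := exists_lift_pow_eq rd1 P2' hJ hdiv hP hJP2 hg hg0
  exact ⟨y, hy, PowTrick.map_eq_span_singleton_of_pow x' O' hn hdiv hy hyc
    (fun hcx => hc (hx' c hcx))⟩

end Node

end Fermat.Agent.GL.EtaReg
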