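import Fermat.Agent.GL.Red.EtaK0
import Fermat.Agent.GL.Reg.EtaThick
import Fermat.Agent.GL.Thick.FixCNode

/-!
# GATE-L / L5-III (T1) over `R` : pointwise thickness at the nodes of level `N' ℓ` (helper96)

helper28's `EtaReg.exists_lift_pow_eq` INSTANTIATED at
`B' := BRingK0 N' ℓ A h` (the ring `B` of level `N' ℓ` over `R = A ∩ K₀`), `C := CRing N' A`,
`rd1 := redC1K0`, `P2' := P2K0 = {w₂ > 0}`, `g := etaBK0 = Δ(z)/Δ(ℓz)`, `n := 12`,
`P := v.asIdeal` a node, with the plug list of helper65 3058: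

* `hJ`   = `BRingK0.exists_mem_P2K0_redC1K0_eq` (K-N6 over `R`);
* `hdiv` = `EtaK0.etaBK0_dvd_pow` (helper16's power trick; `e₂ = 1` over `R`);
* `hJP2` = helper65 `EtaSharp.not_ideal_le_sq`;
* `hg`   = helper65 `FixCNode.ssPolyAll_mem_pow_twelve_of_div` ((III) from (DIV_c));
* `hg0`  = helper65 `NodesSS.aeval_jtC_ne_zero`.

The only hypotheses left are (DIV_3) over `j~ = 0` and (DIV_2) over `j~ = 1728` (`hdiv0`,
`hdiv1728`), in helper95's `intValuation` shape.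
-/

set_option autoImplicit false
set_option linter.unusedSectionVars false

noncomputable section

namespace Fermat.Agent.GL.EtaInstK0

open Polynomial IsDedekindDomain WithZero
open HahnSeries ModularCurve IsLocalRing
open Fermat.Agent.S28 Fermat.Agent.S24 Fermat.Agent.S24_helper62
open Fermat.Agent.GJ.J1 Fermat.Agent.GJ.J1.Val
open Fermat.Agent.GK.AL Fermat.Agent.GK.QS Fermat.Agent.GK.FrobGlue
open Fermat.Agent.GL.Val.GaussK0 Fermat.Agent.GL.Val.SecondK0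
open Fermat.Agent.GL.BRingK0 Fermat.Agent.GL.EtaK0 Fermat.Agent.GL.Eta Fermat.Agent.GL.Thick
open Fermat.Agent.GL.SmallQ IsDedekindDomain.HeightOneSpectrum
open Fermat.Agent.Common_helper32

variable {N' : ℕ} [NeZero N'] {ℓ : ℕ} [Fact ℓ.Prime] [NeZero ℓ]
variable {A : ValuationSubring Kbar} (h : ExactDvd ℓ (N' * ℓ))
variable (hℓN : ¬ ℓ ∣ N') (hA : A.LiesOverPrime ℓ)

local notation "kA" => IsLocalRing.ResidueField A

/-- **`red₁ g = pH(j~)`** over `R` -/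
theorem redC1K0_etaBK0 :
    redC1K0 h hℓN hA (etaBK0 N' ℓ A h (ValuationSubring.nonunits_le hA)) =
      aeval (jtC N' A) (@ssPolyAll ℓ _ kA _ (charP_residue A Fact.out hA)) := by
  rw [redC1K0_apply, toBRing_etaBK0]
  exact redC1_etaB_all hℓN hA

/-- **(T1) over `R`** : at every node `P = v.asIdeal` of level `N' ℓ` there is `y ∈ P'₂ ⊂ B_R` with
`y ^ 12 = g · c`, `c ∈ B_R`, `red₁ c ∉ P`. -/
theorem exists_lift_pow_eq_K0 (h2 : ℓ = 2 → 3 ∣ N') (h3 : ℓ = 3 → 2 ∣ N')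
    {J' : Ideal (CRing N' A)} (hJ : fixIdeal (psiC N' ℓ A hℓN hA) ≤ J')
    (hJ' : BT N' ℓ A h = gluedAlg (psiC N' ℓ A hℓN hA) J')
    [IsDedekindDomain (CRing N' A)] (v : HeightOneSpectrum (CRing N' A))
    (hnode : J' ≤ v.asIdeal)
    (hdiv0 : jtC N' A ∈ v.asIdeal →
      ∀ n : ℕ, v.intValuation (jtC N' A) = exp (-(n : ℤ)) → 3 ∣ n)
    (hdiv1728 : jtC N' A - 1728 ∈ v.asIdeal →
      ∀ n : ℕ, v.intValuation (jtC N' A - 1728) = exp (-(n : ℤ)) → 2 ∣ n) :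
    ∃ y ∈ P2K0 h hℓN hA, ∃ c : BRingK0 N' ℓ A h,
      y ^ 12 = etaBK0 N' ℓ A h (ValuationSubring.nonunits_le hA) * c ∧
        redC1K0 h hℓN hA c ∉ v.asIdeal := by
  have : CharP kA ℓ := charP_residue A Fact.out hA
  refine Fermat.Agent.GL.EtaReg.exists_lift_pow_eq (redC1K0 h hℓN hA) (P2K0 h hℓN hA)
    (J := J') (P := v.asIdeal) (n := 12)
    (fun a ha => exists_mem_P2K0_redC1K0_eq h hℓN hA hJ' ha)
    (fun z hz => etaBK0_dvd_pow h hℓN hA hz)
    v.isMaximal (not_ideal_le_sq hℓN hA hJ v.asIdeal v.isMaximal) ?_ ?_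
  · rw [redC1K0_etaBK0]
    exact ssPolyAll_mem_pow_twelve_of_div hℓN hA h2 h3 hJ' v hnode hdiv0 hdiv1728
  · rw [redC1K0_etaBK0]
    exact aeval_jtC_ne_zero (ssPolyAll_ne_zero ℓ kA)

end Fermat.Agent.GL.EtaInstK0
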