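/-
GATE-L / L5-III, route (B) PLUG (helper92): **(III) `pH(j~) ∈ P^12` at EVERY node, EVERY prime `ℓ`,
UNCONDITIONALLY** — no `(DIV_c)` hypotheses (`hdiv0`, `hdiv1728`), no `(S4)`, no local analysis
over `j~ = 0, 1728`: thickness from the COUNT.

  `#zeros (pH(j~)) = (ℓ-1) ψ(N')`   (helper92 `ZeroCount` / `CountB.card_zeros_ssPolyAll`)
  `12 · #nodes ≤ (ℓ-1) ψ(N')`        (helper60 `GL/Genus/GenusRed.twelve_mul_card_nodes_le'`
                                       = lattice Hurwitz + `DeltaNodes.card_nodes_le`)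
  `∀ a ∈ J', pH(j~) ∣ a^12`, `J'` radical   (helper65 `EtaSharp`)
  ⟹ `(pH(j~)) = J'^12` (`ThickCount.span_eq_pow_of_card_le`) ⟹ `pH(j~) ∈ P^12` at every node.

* `isIntegral_CRing` : `C` is integral over `k[j~]`;
* `hcount_CRing` : helper29's node count `dim (C × C)/B~ = #nodes`, concretely;
* `twelve_mul_ncard_nodes_le_B` : `12 · #nodes ≤ (ℓ-1) ψ(N')` in `ℕ`;
* `span_ssPolyAll_eq_pow_B` : `(pH(j~)) = J'^12`;
* **`ssPolyAll_mem_pow_twelve_B`** : (III) at every node;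
* **`exists_lift_pow_eq_K0_B`** : helper96's `EtaInstK0.exists_lift_pow_eq_K0` WITHOUT the two
  `(DIV_c)` binders (extra: `nuTwo N' = 0`, `nuThree N' = 0`, which the aux prime gives).
-/
import Fermat.Agent.GL.Reg.EtaInstK0
import Fermat.Agent.GL.Genus.GenusRed
import Fermat.Agent.GL.Thick.CountB
import Fermat.Agent.GL.Thick.EtaSharp
import Fermat.Agent.GK.Nodal.FrobGlueNodes

set_option autoImplicit false
set_option linter.unusedSectionVars false
set_option linter.style.haveILetI false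

noncomputable section

namespace Fermat.Agent.GL.EtaInstK0B

open Polynomial IsDedekindDomain WithZero
open HahnSeries ModularCurve IsLocalRing
open Fermat.Agent.S28 Fermat.Agent.S24 Fermat.Agent.S24_helper62
open Fermat.Agent.GJ.J1 Fermat.Agent.GJ.J1.Val
open Fermat.Agent.GK.AL Fermat.Agent.GK.QS Fermat.Agent.GK.FrobGlue
open Fermat.Agent.GL.Val.GaussK0 Fermat.Agent.GL.Val.SecondK0
open Fermat.Agent.GL.BRingK0 Fermat.Agent.GL.EtaK0 Fermat.Agent.GL.Eta Fermat.Agent.GL.Thick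
open Fermat.Agent.GL.SmallQ IsDedekindDomain.HeightOneSpectrum
open Fermat.Agent.Common_helper32

variable {N' : ℕ} [NeZero N'] {ℓ : ℕ} [Fact ℓ.Prime] [NeZero ℓ]
variable {A : ValuationSubring Kbar} (h : ExactDvd ℓ (N' * ℓ))
variable (hℓN : ¬ ℓ ∣ N') (hA : A.LiesOverPrime ℓ)

local notation "kA" => IsLocalRing.ResidueField A

/-- `C` is integral over `k[j~]` (the subalgebra of `C` generated by `j~`). -/
theorem isIntegral_CRing :
    Algebra.IsIntegral (Algebra.adjoin kA {jtC N' A}) (CRing N' A) := by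
  have hmap : (Algebra.adjoin kA {jtC N' A}).map (CRing N' A).val
      = Algebra.adjoin kA {Fermat.Agent.GK.QS.jt N' A} := by
    rw [AlgHom.map_adjoin, Set.image_singleton]
    rfl
  let e : Algebra.adjoin kA {jtC N' A} ≃ₐ[kA] Algebra.adjoin kA {Fermat.Agent.GK.QS.jt N' A} :=
    ((Algebra.adjoin kA {jtC N' A}).equivMapOfInjective (CRing N' A).val
      Subtype.val_injective).trans (Subalgebra.equivOfEq _ _ hmap)
  have he : ∀ x, ((e x : Algebra.adjoin kA {Fermat.Agent.GK.QS.jt N' A}) : FresBar N' A)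
      = ((x : CRing N' A) : FresBar N' A) := fun x => rfl
  refine ⟨fun c => ?_⟩
  have hc : IsIntegral (Algebra.adjoin kA {Fermat.Agent.GK.QS.jt N' A}) (c : FresBar N' A) := c.2
  obtain ⟨p, hp, hpc⟩ := hc
  refine ⟨p.map e.symm.toRingEquiv.toRingHom, hp.map _, ?_⟩
  apply Subtype.val_injective
  have h1 : ((eval₂ (algebraMap (Algebra.adjoin kA {jtC N' A}) (CRing N' A)) c
      (p.map e.symm.toRingEquiv.toRingHom) : CRing N' A) : FresBar N' A)
      = eval₂ (algebraMap (Algebra.adjoin kA {Fermat.Agent.GK.QS.jt N' A}) (FresBar N' A))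
          (c : FresBar N' A) p := by
    rw [eval₂_map]
    have := Polynomial.hom_eval₂ p
      ((algebraMap (Algebra.adjoin kA {jtC N' A}) (CRing N' A)).comp
        e.symm.toRingEquiv.toRingHom) (CRing N' A).val.toRingHom c
    rw [show ((eval₂ ((algebraMap (Algebra.adjoin kA {jtC N' A}) (CRing N' A)).comp
        e.symm.toRingEquiv.toRingHom) c p : CRing N' A) : FresBar N' A)
        = (CRing N' A).val.toRingHom (eval₂ ((algebraMap (Algebra.adjoin kA {jtC N' A})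
          (CRing N' A)).comp e.symm.toRingEquiv.toRingHom) c p) from rfl, this]
    congr 1
    refine RingHom.ext fun x => ?_
    have := he (e.symm x)
    rw [AlgEquiv.apply_symm_apply] at this
    exact this.symm
  rw [h1, hpc]
  rfl

include hA in
/-- **`hcount`**: the codimension of the glueing is the number of nodes (helper29), concretely. -/
theorem hcount_CRing {J' : Ideal (CRing N' A)} (hJ : fixIdeal (psiC N' ℓ A hℓN hA) ≤ J') :
    Module.finrank kA ((CRing N' A × CRing N' A) ⧸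
      Subalgebra.toSubmodule (gluedAlg (psiC N' ℓ A hℓN hA) J')) = (nodes J').ncard := by
  haveI : IsDedekindDomain (CRing N' A) :=
    Fermat.Agent.GK.SS.Modular.isDedekindDomain_CRing N' ℓ A hA
  exact finrank_quotient_gluedAlg_of_isAlgClosed (psiC N' ℓ A hℓN hA) (jtC N' A) isIntegral_CRing
    (Fermat.Agent.GK.SS.Modular.not_isField_CRing N' A) (Fact.out : ℓ.Prime).two_le
    (exists_pow_eq_psiC N' ℓ A hℓN hA) hJ

include hA in
/-- **`12 · #nodes ≤ (ℓ - 1) ψ(N')`** in `ℕ` (helper60's genus bridge + `hcount_CRing`). -/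
theorem twelve_mul_ncard_nodes_le_B (h2 : ℓ = 2 → 3 ∣ N') (h3 : ℓ = 3 → 2 ∣ N')
    (hν2 : nuTwo N' = 0) (hν3 : nuThree N' = 0)
    {J' : Ideal (CRing N' A)} (hJ : fixIdeal (psiC N' ℓ A hℓN hA) ≤ J')
    (hJ' : BT N' ℓ A h = gluedAlg (psiC N' ℓ A hℓN hA) J') :
    12 * (nodes J').ncard ≤ (ℓ - 1) * dedekindPsi N' := by
  have hZ := Fermat.Agent.GL.Genus.twelve_mul_card_nodes_le' N' ℓ A h hℓN hA h2 h3 hν2 hν3 hJ'
    (hcount_CRing hℓN hA hJ)
  have hℓ1 : 1 ≤ ℓ := (Fact.out : ℓ.Prime).one_lt.le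
  zify [hℓ1]
  exact hZ

include hA in
/-- **`(pH(j~)) = J'^12`**, every prime `ℓ`, unconditionally. -/
theorem span_ssPolyAll_eq_pow_B (h2 : ℓ = 2 → 3 ∣ N') (h3 : ℓ = 3 → 2 ∣ N')
    (hν2 : nuTwo N' = 0) (hν3 : nuThree N' = 0)
    {J' : Ideal (CRing N' A)} (hJ : fixIdeal (psiC N' ℓ A hℓN hA) ≤ J')
    (hJ' : BT N' ℓ A h = gluedAlg (psiC N' ℓ A hℓN hA) J') [IsDedekindDomain (CRing N' A)] :
    Ideal.span {aeval (jtC N' A) (@ssPolyAll ℓ _ kA _ (charP_residue A Fact.out hA))}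
      = J' ^ 12 := by
  have : CharP kA ℓ := charP_residue A Fact.out hA
  have hJ0 : J' ≠ ⊥ := fun h0 =>
    aeval_jtC_ne_zero (ssPolyAll_ne_zero ℓ kA)
      ((Submodule.mem_bot _).mp (h0 ▸ ssPolyAll_mem_ideal hℓN hA hJ'))
  exact Fermat.Agent.GL.Thick.CountB.span_ssPolyAll_eq_pow hℓN hA hJ0
    (isRadical_ideal hℓN hA hJ) (fun a ha => ssPolyAll_dvd_pow_of_mem_ideal hℓN hA hJ' ha)
    (twelve_mul_ncard_nodes_le_B h hℓN hA h2 h3 hν2 hν3 hJ hJ')

include hA in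
/-- **(III) of the ETA-route at EVERY node, EVERY prime `ℓ`, UNCONDITIONALLY**:
`pH(j~) ∈ P ^ 12`. -/
theorem ssPolyAll_mem_pow_twelve_B (h2 : ℓ = 2 → 3 ∣ N') (h3 : ℓ = 3 → 2 ∣ N')
    (hν2 : nuTwo N' = 0) (hν3 : nuThree N' = 0)
    {J' : Ideal (CRing N' A)} (hJ : fixIdeal (psiC N' ℓ A hℓN hA) ≤ J')
    (hJ' : BT N' ℓ A h = gluedAlg (psiC N' ℓ A hℓN hA) J') [IsDedekindDomain (CRing N' A)]
    {P : Ideal (CRing N' A)} (hnode : J' ≤ P) :
    aeval (jtC N' A) (@ssPolyAll ℓ _ kA _ (charP_residue A Fact.out hA)) ∈ P ^ 12 := by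
  have h1 := span_ssPolyAll_eq_pow_B h hℓN hA h2 h3 hν2 hν3 hJ hJ'
  have h2' : aeval (jtC N' A) (@ssPolyAll ℓ _ kA _ (charP_residue A Fact.out hA)) ∈ J' ^ 12 := by
    rw [← h1]; exact Ideal.mem_span_singleton_self _
  exact Ideal.pow_right_mono hnode 12 h2'

/-- **(T1) over `R`, UNCONDITIONAL** : at every node `P = v.asIdeal` of level `N' ℓ` there is
`y ∈ P'₂ ⊂ B_R` with `y ^ 12 = g · c`, `c ∈ B_R`, `red₁ c ∉ P` — helper96's
`exists_lift_pow_eq_K0` without `hdiv0`, `hdiv1728`. -/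
theorem exists_lift_pow_eq_K0_B (h2 : ℓ = 2 → 3 ∣ N') (h3 : ℓ = 3 → 2 ∣ N')
    (hν2 : nuTwo N' = 0) (hν3 : nuThree N' = 0)
    {J' : Ideal (CRing N' A)} (hJ : fixIdeal (psiC N' ℓ A hℓN hA) ≤ J')
    (hJ' : BT N' ℓ A h = gluedAlg (psiC N' ℓ A hℓN hA) J')
    [IsDedekindDomain (CRing N' A)] (v : HeightOneSpectrum (CRing N' A))
    (hnode : J' ≤ v.asIdeal) :
    ∃ y ∈ P2K0 h hℓN hA, ∃ c : BRingK0 N' ℓ A h,
      y ^ 12 = etaBK0 N' ℓ A h (ValuationSubring.nonunits_le hA) * c ∧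
        redC1K0 h hℓN hA c ∉ v.asIdeal := by
  have : CharP kA ℓ := charP_residue A Fact.out hA
  refine Fermat.Agent.GL.EtaReg.exists_lift_pow_eq (redC1K0 h hℓN hA) (P2K0 h hℓN hA)
    (J := J') (P := v.asIdeal) (n := 12)
    (fun a ha => exists_mem_P2K0_redC1K0_eq h hℓN hA hJ' ha)
    (fun z hz => etaBK0_dvd_pow h hℓN hA hz)
    v.isMaximal (not_ideal_le_sq hℓN hA hJ v.asIdeal v.isMaximal) ?_ ?_
  · rw [Fermat.Agent.GL.EtaInstK0.redC1K0_etaBK0]
    exact ssPolyAll_mem_pow_twelve_B h hℓN hA h2 h3 hν2 hν3 hJ hJ' hnode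
  · rw [Fermat.Agent.GL.EtaInstK0.redC1K0_etaBK0]
    exact aeval_jtC_ne_zero (ssPolyAll_ne_zero ℓ kA)

end Fermat.Agent.GL.EtaInstK0B
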