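import Fermat.Agent.GL.Reg.EtaInstK0
import Fermat.Agent.GL.Thick.DivCHedge

/-!
# GATE-L / L5-III (T1) over `R`, UNCONDITIONAL (helper65)

helper96's `EtaInstK0.exists_lift_pow_eq_K0` with its last two hypotheses `hdiv0`, `hdiv1728`
discharged by `GL/Thick/DivCHedge` (helper85 `SpecDivEll` + helper95 `PlaceDictC` + helper25
`EllMult`): level `N' ℓ`, `ℓ ∤ N'`, `N'` with an auxiliary prime factor `r`, `r % 3 = 2`,
`r % 4 = 3` (e.g. `r ≡ 11 mod 12`), and the J1 side conditions `ℓ = 2 → 3 ∣ N'`, `ℓ = 3 → 2 ∣ N'`.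

* `exists_lift_pow_eq_K0_of_aux` : at every node `v` there are `y ∈ P'₂ ⊂ B_R`, `c ∈ B_R` with
  `y ^ 12 = g · c`, `red₁ c ∉ P_v`;
* `hthick_K0_of_aux` : the same for every maximal ideal `P ⊇ J'` of `C` — the binder `hthick` of
  helper33 `ClassifyC4.hreg_of_thick` / `hTα_of_thick(_surjective)` VERBATIM
  (`A := BRingK0 N' ℓ A h`, `C := CRing N' A`, `rd1 := redC1K0 h hℓN hA`, `P2' := P2K0 h hℓN hA`,
  `g := etaBK0 …`, `n := 12`, `J := J'`);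
* `etaBK0_ne_zero` : `g ≠ 0`;
* **`exists_ideal_thick_K0`** : ONE statement: `∃ J'` with K-N6 over `R` (helper96
  `exists_ideal_K0`), `J' ≠ ⊥`, `hJ`, `hdiv`, `hg0` and `hthick` — every thickness input of (C4).
-/

set_option autoImplicit false
set_option linter.unusedSectionVars false
set_option linter.style.haveILetI false

noncomputable section

namespace Fermat.Agent.GL.EtaInstK0Aux

open Polynomial IsDedekindDomain WithZero
open HahnSeries ModularCurve IsLocalRing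
open Fermat.Agent.S28 Fermat.Agent.S24 Fermat.Agent.S24_helper62
open Fermat.Agent.GJ.J1 Fermat.Agent.GJ.J1.Val
open Fermat.Agent.GK.AL Fermat.Agent.GK.QS Fermat.Agent.GK.FrobGlue
open Fermat.Agent.GL.Val.GaussK0 Fermat.Agent.GL.Val.SecondK0
open Fermat.Agent.GL.BRingK0 Fermat.Agent.GL.EtaK0 Fermat.Agent.GL.Eta Fermat.Agent.GL.Thick
open Fermat.Agent.GL.SmallQ IsDedekindDomain.HeightOneSpectrum
open Fermat.Agent.Common_helper32
open Fermat.Agent.GL.EtaInstK0 Fermat.Agent.GL.Thick.DivCHedge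

variable {N' : ℕ} [NeZero N'] {ℓ : ℕ} [Fact ℓ.Prime] [NeZero ℓ]
variable {A : ValuationSubring Kbar} (h : ExactDvd ℓ (N' * ℓ))
variable (hℓN : ¬ ℓ ∣ N') (hA : A.LiesOverPrime ℓ)

local notation "kA" => IsLocalRing.ResidueField A

/-- **(T1) over `R` at every node, every `ℓ`, no divisibility hypothesis** -/
theorem exists_lift_pow_eq_K0_of_aux (h2 : ℓ = 2 → 3 ∣ N') (h3 : ℓ = 3 → 2 ∣ N')
    {J' : Ideal (CRing N' A)} (hJ : fixIdeal (psiC N' ℓ A hℓN hA) ≤ J')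
    (hJ' : BT N' ℓ A h = gluedAlg (psiC N' ℓ A hℓN hA) J')
    {r : ℕ} (hr : r.Prime) (hrN : r ∣ N') (hr3 : r % 3 = 2) (hr4 : r % 4 = 3)
    [IsDedekindDomain (CRing N' A)] (v : HeightOneSpectrum (CRing N' A))
    (hnode : J' ≤ v.asIdeal) :
    ∃ y ∈ P2K0 h hℓN hA, ∃ c : BRingK0 N' ℓ A h,
      y ^ 12 = etaBK0 N' ℓ A h (ValuationSubring.nonunits_le hA) * c ∧
        redC1K0 h hℓN hA c ∉ v.asIdeal :=
  exists_lift_pow_eq_K0 h hℓN hA h2 h3 hJ hJ' v hnode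
    (fun _ => hdiv0_of_aux N' A hℓN hA h2 h3 hr hrN hr3 v)
    (fun _ => hdiv1728_of_aux N' A hℓN hA h2 h3 hr hrN hr4 v)

/-- **`hthick`** of helper33 `ClassifyC4.hreg_of_thick` VERBATIM: for every maximal ideal
`P ⊇ J'` of `C` there are `y ∈ P'₂`, `c ∈ B_R` with `y ^ 12 = g · c` and `red₁ c ∉ P`. -/
theorem hthick_K0_of_aux (h2 : ℓ = 2 → 3 ∣ N') (h3 : ℓ = 3 → 2 ∣ N')
    {J' : Ideal (CRing N' A)} (hJ : fixIdeal (psiC N' ℓ A hℓN hA) ≤ J')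
    (hJ' : BT N' ℓ A h = gluedAlg (psiC N' ℓ A hℓN hA) J')
    {r : ℕ} (hr : r.Prime) (hrN : r ∣ N') (hr3 : r % 3 = 2) (hr4 : r % 4 = 3) :
    ∀ P : Ideal (CRing N' A), P.IsMaximal → J' ≤ P →
      ∃ y ∈ P2K0 h hℓN hA, ∃ c : BRingK0 N' ℓ A h,
        y ^ 12 = etaBK0 N' ℓ A h (ValuationSubring.nonunits_le hA) * c ∧
          redC1K0 h hℓN hA c ∉ P := by
  intro P hP hnode
  haveI : IsDedekindDomain (CRing N' A) :=
    Fermat.Agent.GK.SS.Modular.isDedekindDomain_CRing N' ℓ A hA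
  have hP0 : P ≠ ⊥ := Ring.ne_bot_of_isMaximal_of_not_isField hP
    (Fermat.Agent.GK.SS.Modular.not_isField_CRing N' A)
  exact exists_lift_pow_eq_K0_of_aux h hℓN hA h2 h3 hJ hJ' hr hrN hr3 hr4
    ⟨P, hP.isPrime, hP0⟩ hnode

include hℓN in
/-- `g = Δ(z)/Δ(ℓ z) ≠ 0` in `B_R` -/
theorem etaBK0_ne_zero :
    etaBK0 N' ℓ A h (ValuationSubring.nonunits_le hA) ≠ 0 := by
  have : CharP kA ℓ := charP_residue A Fact.out hA
  intro h0
  have h1 := redC1K0_etaBK0 h hℓN hA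
  rw [h0, map_zero] at h1
  exact aeval_jtC_ne_zero (N' := N') (A := A) (ssPolyAll_ne_zero ℓ kA) h1.symm

/-- **Every thickness input of (C4), one statement.**  Level `N' ℓ`, `ℓ ∤ N'`, auxiliary prime
`r ∣ N'`, `r % 3 = 2`, `r % 4 = 3`: there is an ideal `J'` of `C = CRing N' A` with
K-N6 over `R` (`rd(B_R) = gluedAlg Ψ J'`, `red₁ (P'₂) = J'`), `J' ≠ ⊥`, the power trick
`g ∣ z ^ 12` on `P'₂`, `g ≠ 0`, and thickness one at every node. -/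
theorem exists_ideal_thick_K0 (h2 : ℓ = 2 → 3 ∣ N') (h3 : ℓ = 3 → 2 ∣ N')
    {r : ℕ} (hr : r.Prime) (hrN : r ∣ N') (hr3 : r % 3 = 2) (hr4 : r % 4 = 3) :
    ∃ J' : Ideal (CRing N' A), fixIdeal (psiC N' ℓ A hℓN hA) ≤ J' ∧
      BT N' ℓ A h = gluedAlg (psiC N' ℓ A hℓN hA) J' ∧ J' ≠ ⊥ ∧
      (∀ a ∈ J', ∃ y ∈ P2K0 h hℓN hA, redC1K0 h hℓN hA y = a) ∧
      (P2K0 h hℓN hA).map (redC1K0 h hℓN hA) = J' ∧
      (∀ z ∈ P2K0 h hℓN hA, etaBK0 N' ℓ A h (ValuationSubring.nonunits_le hA) ∣ z ^ 12) ∧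
      etaBK0 N' ℓ A h (ValuationSubring.nonunits_le hA) ≠ 0 ∧
      ∀ P : Ideal (CRing N' A), P.IsMaximal → J' ≤ P →
        ∃ y ∈ P2K0 h hℓN hA, ∃ c : BRingK0 N' ℓ A h,
          y ^ 12 = etaBK0 N' ℓ A h (ValuationSubring.nonunits_le hA) * c ∧
            redC1K0 h hℓN hA c ∉ P := by
  obtain ⟨J', hJ, hJ', -, -, hlift, hmap⟩ := exists_ideal_K0 h hℓN hA h2 h3
  exact ⟨J', hJ, hJ', ideal_ne_bot hℓN hA hJ', hlift, hmap,
    fun z hz => etaBK0_dvd_pow h hℓN hA hz, etaBK0_ne_zero h hℓN hA,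
    hthick_K0_of_aux h hℓN hA h2 h3 hJ hJ' hr hrN hr3 hr4⟩

end Fermat.Agent.GL.EtaInstK0Aux
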