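/-
GATE-L / L5-III (T2) ASSEMBLY, `hthick` form (helper28): REG AT A TRIPLE POINT with the level-`qM`
thickness input taken in the shape of helper65's `EtaInstK0Aux.hthick_K0_of_aux` /
helper33 `ClassifyC4.hreg_of_thick` (`∀ P ⊇ J maximal, ∃ y ∈ P2', c : yⁿ = g c, rd1 c ∉ P`), and the
UNCONDITIONAL concrete statement over `K₀` at an auxiliary level.

* `ufd_of_thick_hval` : abstract, twin of `TripleRegHval.ufd_of_eta_hval` with `hthick` instead of
  `hJsq hIII hg0` (the proof is the same: the pulled-back thickness element is a local generator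
  of the vertical prime `p2`, then helper47 `LocTypeI.ufd_localization`);
* **`ufd_at_triple_aux`** : level `N' ℓ ℓ`, `ℓ ∤ N'`, aux prime `r ∣ N'`, `r % 3 = 2`, `r % 4 = 3`:
  `Localization.AtPrime x` is a UFD at every prime `x` of the chart ring `B` lying over a node —
  the ONLY hypotheses are the frame data of `B` at `x` (`hαB hx1 hx2 p2 hp2 hp2x hvert hval`);
  = `hreg` of helper39 `H4Loc.hloc_triple` / `h4_core` at `S.P n := x`.
-/
import Fermat.Agent.GL.Reg.TripleRegK0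
import Fermat.Agent.GL.Reg.EtaInstK0Aux

set_option autoImplicit false
set_option linter.unusedSectionVars false

noncomputable section

namespace Fermat.Agent.GL.TripleRegThick

open Fermat.Agent.GL.KrullFrame Fermat.Agent.GL.Frame.HeightOne Fermat.Agent.GL.Frame

section Abs

variable {F : Type*} [Field F] {B : Subring F} [IsFractionRing B F] [IsNoetherianRing B]
  [IsIntegrallyClosed B]
variable {B' C : Type*} [CommRing B'] [CommRing C] [IsDedekindDomain C]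

/-- **REG at a triple point, `hthick` + `hval` form.** -/
theorem ufd_of_thick_hval
    (rd1 : B' →+* C) (hrd1 : Function.Surjective rd1) (P2' : Ideal B') {J : Ideal C}
    (hJ0 : J ≠ ⊥) {g : B'} {n : ℕ} (hn : n ≠ 0)
    (hJ : ∀ a ∈ J, ∃ y ∈ P2', rd1 y = a) (hdiv : ∀ z ∈ P2', g ∣ z ^ n)
    (hthick : ∀ P : Ideal C, P.IsMaximal → J ≤ P →
      ∃ y ∈ P2', ∃ c : B', y ^ n = g * c ∧ rd1 c ∉ P)
    (α : B' →+* B) (x : Ideal B) [x.IsPrime]
    (hx1 : ∀ c : B', rd1 c = 0 → α c ∈ x) (hx2 : ∀ y ∈ P2', α y ∈ x)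
    (p2 : HtOne B) (hp2x : p2.1 ≤ x) (hαP : ∀ y ∈ P2', α y ∈ p2.1)
    {q : B'} (hq2 : q ∈ P2') (hαq0 : α q ≠ 0)
    (he : ∀ z ∈ (V1 F p2).nonunits, z / algebraMap B F (α q) ∈ V1 F p2)
    (hvert : ∀ p : HtOne B, α q ∈ p.1 → p.1 ≤ x → p ≠ p2 →
      (algebraMap B F (α g))⁻¹ ∈ V1 F p)
    (hval : ∀ a b : B, ∃ c s : B, s ∉ x ∧ (s * a - c * b ∈ p2.1 ∨ s * b - c * a ∈ p2.1)) :
    UniqueFactorizationMonoid (Localization.AtPrime x) := by
  have hBinj : Function.Injective (algebraMap B F) := IsFractionRing.injective B F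
  have hne : ∀ {b : B}, b ≠ 0 → algebraMap B F b ≠ 0 := fun hb =>
    (map_ne_zero_iff _ hBinj).mpr hb
  obtain ⟨c0, hc0⟩ := hdiv q hq2
  have hgc : α g * α c0 = α q ^ n := by rw [← map_mul, ← hc0, map_pow]
  have hαg : α g ≠ 0 := by
    intro h0
    rw [h0, zero_mul] at hgc
    exact pow_ne_zero n hαq0 hgc.symm
  -- the node below `x`
  set P : Ideal C := (x.comap α).map rd1 with hPdef
  have hker : RingHom.ker rd1 ≤ x.comap α := fun c hc => hx1 c hc
  have hPprime : P.IsPrime := Ideal.map_isPrime_of_surjective hrd1 hker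
  have hJP : J ≤ P := by
    intro a ha
    obtain ⟨y, hy, rfl⟩ := hJ a ha
    exact Ideal.mem_map_of_mem _ (hx2 y hy)
  have hP0 : P ≠ ⊥ := by
    intro h0
    apply hJ0
    rw [eq_bot_iff, ← h0]
    exact hJP
  have hPmax : P.IsMaximal := hPprime.isMaximal hP0
  obtain ⟨y, hy, c, hyc, hc⟩ := hthick P hPmax hJP
  have hyc' : α y ^ n = α g * α c := by rw [← map_pow, hyc, map_mul]
  have hcx : α c ∉ x := fun h => hc (Ideal.mem_map_of_mem _ h)
  have hαc0 : α c ≠ 0 := fun h => hcx (h ▸ x.zero_mem)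
  have hπne : α y ≠ 0 := by
    intro h0
    rw [h0, zero_pow hn] at hyc'
    exact mul_ne_zero hαg hαc0 hyc'.symm
  have hycF : algebraMap B F (α y) ^ n = algebraMap B F (α g) * algebraMap B F (α c) := by
    rw [← map_pow, hyc', map_mul]
  have hgcF : algebraMap B F (α g) * algebraMap B F (α c0) = algebraMap B F (α q) ^ n := by
    rw [← map_mul, hgc, map_pow]
  refine LocTypeI.ufd_localization x hp2x hπne (hαP y hy) ?_ ?_ hval
  · intro f hf
    have h1 : algebraMap B F f ∈ (V1 F p2).nonunits :=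
      (algebraMap_mem_nonunits_V1_iff p2 f).2 hf
    have h2 := he _ h1
    have h3 : algebraMap B F (α q) / algebraMap B F (α y) ∈ V1 F p2 := by
      apply TripleRegHval.mem_of_pow_mem' hn
      have e1 : (algebraMap B F (α q) / algebraMap B F (α y)) ^ n =
          algebraMap B F (α c0) * (algebraMap B F (α c))⁻¹ := by
        rw [div_pow, hycF, ← hgcF, ← div_eq_mul_inv,
          div_eq_div_iff (mul_ne_zero (hne hαg) (hne hαc0)) (hne hαc0)]
        ring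
      rw [e1]
      exact (V1 F p2).mul_mem _ _ (algebraMap_mem_V1 p2 _)
        (inv_algebraMap_mem_V1 p2 (fun h => hcx (hp2x h)))
    have h4 : algebraMap B F f / algebraMap B F (α y) ∈ V1 F p2 := by
      have e2 : algebraMap B F f / algebraMap B F (α y) =
          algebraMap B F f / algebraMap B F (α q) *
            (algebraMap B F (α q) / algebraMap B F (α y)) := by
        rw [div_mul_div_comm, mul_comm, mul_div_mul_left _ _ (hne hαq0)]
      rw [e2]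
      exact (V1 F p2).mul_mem _ _ h2 h3
    obtain ⟨s, hs, a, ha⟩ := (mem_V1_iff p2).1 h4
    refine ⟨s, hs, a, ?_⟩
    apply hBinj
    rw [map_mul, map_mul, ha, Algebra.smul_def, mul_comm (algebraMap B F (α y)),
      mul_assoc, div_mul_cancel₀ _ (hne hπne)]
  · intro 𝔮 h𝔮 h𝔮x hmem
    have h1 : α g * α c ∈ 𝔮.1 := hyc' ▸ Ideal.pow_mem_of_mem 𝔮.1 hmem n (Nat.pos_of_ne_zero hn)
    rcases 𝔮.2.1.mem_or_mem h1 with h2 | h2
    · have hq𝔮 : α q ∈ 𝔮.1 := by
        have h3 : α q ^ n ∈ 𝔮.1 := hgc ▸ 𝔮.1.mul_mem_right _ h2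
        exact 𝔮.2.1.mem_of_pow_mem n h3
      exact not_inv_algebraMap_mem_V1 𝔮 h2 hαg (hvert 𝔮 hq𝔮 h𝔮x h𝔮)
    · exact hcx (h𝔮x h2)

end Abs

section K0

open HahnSeries ModularCurve IsLocalRing Polynomial
open Fermat.Agent.S24 Fermat.Agent.GJ.J1 Fermat.Agent.GJ.J1.Val Fermat.Agent.S28
open Fermat.Agent.GK.AL Fermat.Agent.GL.AL Fermat.Agent.GK.QS Fermat.Agent.GK.FrobGlue
open Fermat.Agent.GL.Eta Fermat.Agent.GL.Thick Fermat.Agent.GL.SmallQ
open Fermat.Agent.GL.Val.GaussK0 Fermat.Agent.GL.Val.SecondK0 Fermat.Agent.GL.Val.SecondK0Hall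
open Fermat.Agent.GL.Val.ThirdK0 Fermat.Agent.GL.Table.K0 Fermat.Agent.GL.TripleRegK0

variable {N' : ℕ} [NeZero N'] {ℓ : ℕ} [Fact ℓ.Prime] [NeZero ℓ]
variable {A : ValuationSubring Kbar} (h : ExactDvd ℓ (N' * ℓ))
variable (hQ : HallDvd (ℓ ^ 2) (N' * ℓ * ℓ))
variable (hℓN : ¬ ℓ ∣ N') (hA : A.LiesOverPrime ℓ)

local notation "F0" => modularFunctionFieldFullC (K0 A) (N' * ℓ)
local notation "F1" => modularFunctionFieldFullC (K0 A) (N' * ℓ * ℓ)
local notation "BR" => BRingK0.BRingK0 N' ℓ A h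

variable {B : Subring (modularFunctionFieldFullC (K0 A) (N' * ℓ * ℓ))}
  [IsFractionRing B (modularFunctionFieldFullC (K0 A) (N' * ℓ * ℓ))] [IsNoetherianRing B]
  [IsIntegrallyClosed B]

set_option synthInstance.maxHeartbeats 200000

set_option maxHeartbeats 400000 in
/-- **REG AT A TRIPLE POINT over `K₀`, UNCONDITIONAL at an auxiliary level** (`r ∣ N'` prime,
`r % 3 = 2`, `r % 4 = 3`): only the frame data of the chart ring `B` at `x` are hypotheses. -/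
theorem ufd_at_triple_aux (h2 : ℓ = 2 → 3 ∣ N') (h3 : ℓ = 3 → 2 ∣ N')
    {r : ℕ} (hr : r.Prime) (hrN : r ∣ N') (hr3 : r % 3 = 2) (hr4 : r % 4 = 3)
    (hαB : ∀ x0 : BR, alphaK0 A (N' * ℓ) ℓ (x0 : F0) ∈ B)
    (x : Ideal B) [x.IsPrime]
    (hx1 : ∀ x0 : BR, BRingK0.redC1K0 h hℓN hA x0 = 0 → alphaB' h hαB x0 ∈ x)
    (hx2 : ∀ x0 ∈ BRingK0.P2K0 h hℓN hA, alphaB' h hαB x0 ∈ x)
    (p2 : HtOne B) (hp2 : V1 F1 p2 = (redData2QK0 A (N' * ℓ * ℓ) hQ).Rw) (hp2x : p2.1 ≤ x)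
    (hvert : ∀ p : HtOne B, ((ℓ : ℕ) : B) ∈ p.1 → p.1 ≤ x → p ≠ p2 →
      V1 F1 p = RwK0 A (N' * ℓ * ℓ) ∨ V1 F1 p = Rw3K0 A (N' * ℓ * ℓ) ℓ)
    (hval : ∀ a b : B, ∃ c s : B, s ∉ x ∧ (s * a - c * b ∈ p2.1 ∨ s * b - c * a ∈ p2.1)) :
    UniqueFactorizationMonoid (Localization.AtPrime x) := by
  have hD : IsDedekindDomain (CRing N' A) :=
    Fermat.Agent.GK.SS.Modular.isDedekindDomain_CRing N' ℓ A hA
  obtain ⟨J', -, -, hJ0, hJ, -, hdiv, -, hthick⟩ :=
    EtaInstK0Aux.exists_ideal_thick_K0 h hℓN hA h2 h3 hr hrN hr3 hr4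
  have he0 : mapK0Bar A (N' * ℓ)
      ((EtaK0.etaBK0 N' ℓ A h (ValuationSubring.nonunits_le hA) : BR) : F0) =
      etaQ (N' * ℓ) ℓ h.dvd := EtaK0.mapK0Bar_etaQK0 N' ℓ A h
  have hαℓ : alphaB' h hαB ((ℓ : ℕ) : BR) = ((ℓ : ℕ) : B) := map_natCast _ _
  have hcoe : ∀ b : B, algebraMap B F1 b = (b : F1) := fun _ => rfl
  refine ufd_of_thick_hval (F := F1) (BRingK0.redC1K0 h hℓN hA)
    (BRingK0.redC1K0_surjective h hℓN hA h2 h3) (BRingK0.P2K0 h hℓN hA) hJ0
    (g := EtaK0.etaBK0 N' ℓ A h (ValuationSubring.nonunits_le hA)) (n := 12) (by norm_num)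
    hJ hdiv hthick (alphaB' h hαB) x hx1 hx2 p2 hp2x ?_
    (q := ((ℓ : ℕ) : BR)) (natCast_mem_P2K0 h hℓN hA) ?_ ?_ ?_ hval
  · intro y hy
    rw [← algebraMap_mem_nonunits_V1_iff (F := F1) p2, hp2, hcoe, coe_alphaB']
    have h1 := (BRingK0.mem_P2K0_iff h hℓN hA).1 hy
    exact (mem_nonunits_of_comap ((alphaK0 A (N' * ℓ) ℓ : F0 →ₐ[K0 A] F1) : F0 →+* F1) _ _
      (fun z => (alphaK0_mem_Rw2QK0_iff A N' hQ h z).symm) _).1 h1
  · rw [hαℓ]
    intro h0
    apply natCast_ne_zero_F1 (N' := N') (ℓ := ℓ) (A := A)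
    have := congrArg (fun b : B => (b : F1)) h0
    simpa using this
  · intro z hz
    rw [hp2] at hz ⊢
    rw [hcoe, hαℓ]
    simpa using div_mem_Rw2Q_of_mem_nonunits hQ hA hz
  · intro p hp hpx hne
    rw [hαℓ] at hp
    rw [hcoe, coe_alphaB']
    rcases hvert p hp hpx hne with h1 | h1
    · rw [h1]
      exact alpha_eta_inv_mem_Rw1 h _ he0
    · rw [h1]
      exact alpha_eta_inv_mem_Rw3 h _ he0

end K0

end Fermat.Agent.GL.TripleRegThick
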