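/-
GATE-L / L5-III (T2) PLUG at the chart ring (helper28): `TripleRegThick.ufd_at_triple_aux` at

  `B := Bj = chartRing (R0 A) (jC (N' ℓ ℓ) (K0 A))`   (helper80 `FrameInst`, helper96 `BRingChart`)

with EVERY frame hypothesis discharged from landed files:

* `hαB` : `α (B_R) ⊆ Bj` from helper96 `bRingK0_eq_chartRing` + helper80 `map_mem_chartRing`
  (`α j' = j`);
* the vertical primes of `Bj` = `w₁ w₂ w₃` : helper80 `exists_frame_self` fed with helper75's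
  NOEXT exactly as in helper96 `mem_chartRing_jC_iff_three` (`exists_frame_three`);
* `hx1 hx2` from "`x` lies on the components `C₁` and `C₂`" (`𝔪(w₁) ∩ Bj ⊆ x`, `𝔪(w₂) ∩ Bj ⊆ x`)
  and the rows `(α; w₁ → w₁')`, `(α; w₂ → w₂')`;
* `hval` from helper84 `HvalFinK0.hval_fin_W2` (its `hB` = `mem_chartRing_jC_iff_three` ∘
  `mem_B3K0_iff`; its `hin` = helper15 `RedInC` stays a hypothesis).

**`ufd_at_triple_chart`** : `Localization.AtPrime x` is a UFD for every prime `x` of `Bj` on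
`C₁ ∩ C₂`, at an auxiliary level; **`hreg_chart`** = the binder `hreg` of helper39
`H4Loc.hloc_triple` / `h4_core` for any family of such points.
-/
import Fermat.Agent.GL.Reg.TripleRegThick
import Fermat.Agent.GL.Red.BRingChart
import Fermat.Agent.GL.Frame.FrameInstVal
import Fermat.Agent.GL.Frame.FrameInstMap
import Fermat.Agent.GL.Final.HvalFinK0

set_option autoImplicit false
set_option linter.unusedSectionVars false

noncomputable section

namespace Fermat.Agent.GL.TripleRegInst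

open HahnSeries ModularCurve IsLocalRing Polynomial IntermediateField
open Fermat.Agent.S24 Fermat.Agent.GJ.J1 Fermat.Agent.GJ.J1.Val Fermat.Agent.S28
open Fermat.Agent.GK.AL Fermat.Agent.GL.AL Fermat.Agent.GK.QS Fermat.Agent.GK.FrobGlue
open Fermat.Agent.GL.Eta Fermat.Agent.GL.Thick Fermat.Agent.GL.SmallQ
open Fermat.Agent.GL.Val.GaussK0 Fermat.Agent.GL.Val.SecondK0 Fermat.Agent.GL.Val.SecondK0Hall
open Fermat.Agent.GL.Val.ThirdK0 Fermat.Agent.GL.Table.K0 Fermat.Agent.GL.TripleRegK0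
open Fermat.Agent.GL.Val.DegBase Fermat.Agent.GL.GaussAt Fermat.Agent.GL.GaussExtBridge
open Fermat.Agent.GL.Val.GaussAtK0 Fermat.Agent.GL.Val.L1eAsmK0 Fermat.Agent.GL.Val.L1eLower
open Fermat.Agent.GL.Val.L1eJC Fermat.Agent.GL.W3 Fermat.Agent.GL.BRingChart
open Fermat.Agent.GL.Frame.HeightOne Fermat.Agent.GL.Frame Fermat.Agent.GL.Frame.Inst
open Fermat.Agent.GL.Frame.InstVal Fermat.Agent.GL.Frame.InstMap
open Fermat.Agent.GL.OldTriplesK0

set_option synthInstance.maxHeartbeats 400000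

/-! ### the frame of level `N = M' q²` over `K₀` -/

section Frame

variable (A : ValuationSubring Kbar) (N : ℕ) [NeZero N]
variable {q M' : ℕ} [NeZero M'] (hq : q.Prime) (hN : N = M' * q ^ 2) (hqM : ¬ q ∣ M')
  (hA : A.LiesOverPrime q) (hQ : HallDvd (q ^ 2) N)

include hq hN hqM hA in
/-- **the `j`-frame of level `M' q²` over `R₀`** : helper80 `exists_frame_self` fed with
helper75's NOEXT (as in helper96 `mem_chartRing_jC_iff_three`). -/
theorem exists_frame_three :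
    ∃ (_ : IsNoetherianRing (chartRing (R0 A) (jC N (K0 A))))
      (_ : IsIntegrallyClosed (chartRing (R0 A) (jC N (K0 A))))
      (_ : IsFractionRing (chartRing (R0 A) (jC N (K0 A)))
        (modularFunctionFieldFullC (K0 A) N))
      (hqB : baseB (jC N (K0 A)) (q0 A q) ≠ 0)
      (f : Fin 3 → HtOne (chartRing (R0 A) (jC N (K0 A)))),
      (∀ i, V1 (modularFunctionFieldFullC (K0 A) N) (f i) =
        ![RwK0 A N, (redData2QK0 A N hQ).Rw, Rw3K0 A N q] i) ∧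
      (∀ p, p ∈ vertFinset hqB ↔ ∃ i, f i = p) ∧
      (∀ i (b : chartRing (R0 A) (jC N (K0 A))), b ∈ (f i).1 ↔
        (b : modularFunctionFieldFullC (K0 A) N) ∈
          (![RwK0 A N, (redData2QK0 A N hQ).Rw, Rw3K0 A N q] i).nonunits) := by
  have hq2 : q ^ 2 * 1 ∣ N := by rw [mul_one, hN]; exact dvd_mul_left _ _
  have : NeZero (q ^ 2 * 1) := ⟨by rw [mul_one]; exact pow_ne_zero 2 hq.ne_zero⟩
  have := isScalarTower_R0 A N
  have := isDiscreteValuationRing_R0 A hq hA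
  have := finiteDimensional_jC A N
  have := isSeparable_jC A N
  obtain ⟨i1, i2, i3, hqB, f, hf1, hf2, hf3, -⟩ :=
    exists_frame_self (A := R0 A) (irreducible_q0 A hq hA)
      ![RwK0 A N, (redData2QK0 A N hQ).Rw, Rw3K0 A N q]
      (fun i => by
        fin_cases i
        · exact over_Rw1K0 A hq hA
        · exact fun a => ((redData2QK0 A N hQ).mem_A_iff a).symm
        · exact (isRamified_Rw3K0 A hq hN hqM hA (one_dvd M') hq2 (one_dvd N)).mem_iff)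
      (j := jC N (K0 A))
      (fun i => by
        fin_cases i
        · exact isGaussAt_Rw1K0 A N
        · exact isGaussAt_Rw2QK0 A hQ
        · exact isGaussAt_Rw3K0 A q)
      (fun V hV hG => by
        rcases Fermat.Agent.GL.Val.L1eThm.exists_eq_of_isGaussAt_jC A hq hN hqM hA hQ hV hG with
          h1 | h1 | h1
        · exact ⟨0, h1⟩
        · exact ⟨1, h1⟩
        · exact ⟨2, h1⟩)
  exact ⟨i1, i2, i3, hqB, f, hf1, hf2, hf3⟩

include hq hN hqM hA hQ in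
theorem isNoetherianRing_chartThree : IsNoetherianRing (chartRing (R0 A) (jC N (K0 A))) := by
  obtain ⟨i1, -⟩ := exists_frame_three A N hq hN hqM hA hQ
  exact i1

include hq hN hqM hA hQ in
theorem isIntegrallyClosed_chartThree :
    IsIntegrallyClosed (chartRing (R0 A) (jC N (K0 A))) := by
  obtain ⟨-, i2, -⟩ := exists_frame_three A N hq hN hqM hA hQ
  exact i2

include hq hN hqM hA hQ in
theorem isFractionRing_chartThree :
    IsFractionRing (chartRing (R0 A) (jC N (K0 A))) (modularFunctionFieldFullC (K0 A) N) := by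
  obtain ⟨-, -, i3, -⟩ := exists_frame_three A N hq hN hqM hA hQ
  exact i3

end Frame

/-! ### the plug -/

section Plug

variable {N' : ℕ} [NeZero N'] {ℓ : ℕ} [Fact ℓ.Prime] [NeZero ℓ]
variable {A : ValuationSubring Kbar} (h : ExactDvd ℓ (N' * ℓ))
variable (hQ : HallDvd (ℓ ^ 2) (N' * ℓ * ℓ))
variable (hℓN : ¬ ℓ ∣ N') (hA : A.LiesOverPrime ℓ)

local notation "F0" => modularFunctionFieldFullC (K0 A) (N' * ℓ)
local notation "F1" => modularFunctionFieldFullC (K0 A) (N' * ℓ * ℓ)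
local notation "BR" => BRingK0.BRingK0 N' ℓ A h
local notation "Bj" => chartRing (R0 A) (jC (N' * ℓ * ℓ) (K0 A))

include hA in
/-- **`hαB`** : `α` maps the ring `B_R` of level `N' ℓ` into the chart ring of level `N' ℓ ℓ`. -/
theorem alphaK0_mem_chartRing (x0 : BR) : alphaK0 A (N' * ℓ) ℓ (x0 : F0) ∈ Bj := by
  have hz : (x0 : F0) ∈ chartRing (R0 A) (jC (N' * ℓ) (K0 A)) := by
    rw [← bRingK0_eq_chartRing h hA]
    exact x0.2
  refine map_mem_chartRing (R := R0 A)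
    ((alphaK0 A (N' * ℓ) ℓ : F0 →ₐ[K0 A] F1) : F0 →+* F1) (fun r => ?_) ?_ hz
  · exact (alphaK0 A (N' * ℓ) ℓ).commutes (r : K0 A)
  · have hj : alphaK0 A (N' * ℓ) ℓ (jC (N' * ℓ) (K0 A)) = jC (N' * ℓ * ℓ) (K0 A) :=
      Subtype.ext (by rw [coe_alphaC]; rfl)
    rw [RingHom.coe_coe, hj]
    exact subset_icRing _ _ (Set.mem_singleton _)

/-- the uniformiser of `R₀` is `ℓ` in the chart ring -/
theorem baseB_q0 : baseB (jC (N' * ℓ * ℓ) (K0 A)) (q0 A ℓ) = (((ℓ : ℕ) : Bj)) := by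
  apply Subtype.ext
  have h1 : ((q0 A ℓ : R0 A) : K0 A) = ((ℓ : ℕ) : K0 A) :=
    ι0_injective A (by rw [ι0_q0, map_natCast])
  show algebraMap (K0 A) F1 ((q0 A ℓ : R0 A) : K0 A) = _
  rw [h1, map_natCast]
  simp

include hA hℓN in
/-- helper84's `hB` : the chart ring is helper15's `B3K0` -/
theorem mem_chartRing_iff_B3K0 (x : F1) : x ∈ Bj ↔ x ∈ B3K0 N' ℓ A hQ :=
  (mem_chartRing_jC_iff_three A (N' * ℓ * ℓ) (Fact.out : ℓ.Prime) (by ring) hℓN hA hQ x).trans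
    mem_B3K0_iff.symm

set_option maxHeartbeats 800000 in
include h hℓN hA in
/-- **REG AT A TRIPLE POINT OF THE CHART RING** (level `N' ℓ ℓ` over `K₀`, aux prime `r ∣ N'`,
`r % 3 = 2`, `r % 4 = 3`): `Localization.AtPrime x` is a UFD for every prime `x` of
`Bj = chartRing R₀ j` lying on the components `C₁` and `C₂` (`hx1 hx2`); the only non-frame input
is `hval` at the `w₂`-prime. -/
theorem ufd_at_triple_chart_of_hval (h2 : ℓ = 2 → 3 ∣ N') (h3 : ℓ = 3 → 2 ∣ N')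
    {r : ℕ} (hr : r.Prime) (hrN : r ∣ N') (hr3 : r % 3 = 2) (hr4 : r % 4 = 3)
    (x : Ideal Bj) [x.IsPrime]
    (hx1 : ∀ b : Bj, (b : F1) ∈ (RwK0 A (N' * ℓ * ℓ)).nonunits → b ∈ x)
    (hx2 : ∀ b : Bj, (b : F1) ∈ (redData2QK0 A (N' * ℓ * ℓ) hQ).Rw.nonunits → b ∈ x)
    (hval : ∀ (_ : IsNoetherianRing Bj) (_ : IsIntegrallyClosed Bj) (_ : IsFractionRing Bj F1)
      (p2 : HtOne Bj), V1 F1 p2 = (redData2QK0 A (N' * ℓ * ℓ) hQ).Rw → p2.1 ≤ x →
      ∀ a b : Bj, ∃ c s : Bj, s ∉ x ∧ (s * a - c * b ∈ p2.1 ∨ s * b - c * a ∈ p2.1)) :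
    UniqueFactorizationMonoid (Localization.AtPrime x) := by
  have hℓ : ℓ.Prime := Fact.out
  obtain ⟨i1, i2, i3, hqB, f, hf1, hf2, hf3⟩ :=
    exists_frame_three A (N' * ℓ * ℓ) hℓ (by ring) hℓN hA hQ
  have hp2x : (f 1).1 ≤ x := fun b hb => hx2 b ((hf3 1 b).1 hb)
  refine TripleRegThick.ufd_at_triple_aux h hQ hℓN hA h2 h3 hr hrN hr3 hr4
    (alphaK0_mem_chartRing h hA) x ?_ ?_ (f 1) (hf1 1) hp2x ?_
    (hval i1 i2 i3 (f 1) (hf1 1) hp2x)
  · intro x0 hx0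
    apply hx1
    rw [coe_alphaB']
    exact (mem_nonunits_iff_of_row ((alphaK0 A (N' * ℓ) ℓ : F0 →ₐ[K0 A] F1) : F0 →+* F1)
      (fun z => alphaK0_mem_RwK0_iff A (N' * ℓ) ℓ z) _).2
      ((redC1K0_eq_zero_iff h hA hℓN).1 hx0)
  · intro x0 hx0
    apply hx2
    rw [coe_alphaB']
    exact (mem_nonunits_iff_of_row ((alphaK0 A (N' * ℓ) ℓ : F0 →ₐ[K0 A] F1) : F0 →+* F1)
      (fun z => alphaK0_mem_Rw2QK0_iff A N' hQ h z) _).2
      ((BRingK0.mem_P2K0_iff h hℓN hA).1 hx0)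
  · intro p hp _ hne
    rw [← baseB_q0, ← mem_vertFinset hqB, hf2] at hp
    obtain ⟨i, rfl⟩ := hp
    fin_cases i
    · exact Or.inl (hf1 0)
    · exact absurd rfl hne
    · exact Or.inr (hf1 2)

set_option maxHeartbeats 800000 in
include h hℓN hA in
/-- **REG AT A TRIPLE POINT OF THE CHART RING**, `hval` from helper84 `HvalFinK0.hval_fin_W2`: the
only input beyond arithmetic is helper15's (RedInC) at `w₂` (`hin`). -/
theorem ufd_at_triple_chart (h2 : ℓ = 2 → 3 ∣ N') (h3 : ℓ = 3 → 2 ∣ N')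
    {r : ℕ} (hr : r.Prime) (hrN : r ∣ N') (hr3 : r % 3 = 2) (hr4 : r % 4 = 3)
    (hin : ∀ x0 : B3K0 N' ℓ A hQ, ∃ c : CRing N' A, rdK2 N' ℓ A hQ x0 = cVal N' A c)
    (x : Ideal Bj) [x.IsPrime]
    (hx1 : ∀ b : Bj, (b : F1) ∈ (RwK0 A (N' * ℓ * ℓ)).nonunits → b ∈ x)
    (hx2 : ∀ b : Bj, (b : F1) ∈ (redData2QK0 A (N' * ℓ * ℓ) hQ).Rw.nonunits → b ∈ x) :
    UniqueFactorizationMonoid (Localization.AtPrime x) :=
  ufd_at_triple_chart_of_hval h hQ hℓN hA h2 h3 hr hrN hr3 hr4 x hx1 hx2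
    (fun _ _ _ p2 hp2 hp2x a b =>
      Fermat.Agent.GL.Final.HvalFinK0.hval_fin_W2 (mem_chartRing_iff_B3K0 hQ hℓN hA)
        hℓN hA h2 h3 hin x p2 hp2x hp2 a b)

include h hℓN hA in
/-- **`hreg` of helper39 `H4Loc.hloc_triple` / `h4_core`** at the chart ring, for ANY family `P` of
maximal ideals lying on `C₁ ∩ C₂`. -/
theorem hreg_chart (h2 : ℓ = 2 → 3 ∣ N') (h3 : ℓ = 3 → 2 ∣ N')
    {r : ℕ} (hr : r.Prime) (hrN : r ∣ N') (hr3 : r % 3 = 2) (hr4 : r % 4 = 3)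
    (hin : ∀ x0 : B3K0 N' ℓ A hQ, ∃ c : CRing N' A, rdK2 N' ℓ A hQ x0 = cVal N' A c)
    {T : Type*} (P : T → Ideal Bj) (hmax : ∀ n, (P n).IsMaximal)
    (hk1 : ∀ n (b : Bj), (b : F1) ∈ (RwK0 A (N' * ℓ * ℓ)).nonunits → b ∈ P n)
    (hk2 : ∀ n (b : Bj), (b : F1) ∈ (redData2QK0 A (N' * ℓ * ℓ) hQ).Rw.nonunits → b ∈ P n) :
    ∀ n, ∃ _ : (P n).IsPrime, UniqueFactorizationMonoid (Localization.AtPrime (P n)) := by
  intro n
  have hp : (P n).IsPrime := (hmax n).isPrime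
  exact ⟨hp, ufd_at_triple_chart h hQ hℓN hA h2 h3 hr hrN hr3 hr4 hin (P n) (hk1 n) (hk2 n)⟩

include hℓN hA in
/-- **`hvert` of `H4Loc.hloc_triple`** at the chart ring with `qB := ℓ` : every vertical
height-one prime of `Bj` is one of `w₁ w₂ w₃`. -/
theorem hvert_chart [IsNoetherianRing Bj] [IsIntegrallyClosed Bj] [IsFractionRing Bj F1]
    (p : HtOne Bj) (hp : ((ℓ : ℕ) : Bj) ∈ p.1) :
    V1 F1 p = RwK0 A (N' * ℓ * ℓ) ∨ V1 F1 p = (redData2QK0 A (N' * ℓ * ℓ) hQ).Rw ∨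
      V1 F1 p = Rw3K0 A (N' * ℓ * ℓ) ℓ := by
  have hℓ : ℓ.Prime := Fact.out
  obtain ⟨i1, i2, i3, hqB, f, hf1, hf2, hf3⟩ :=
    exists_frame_three A (N' * ℓ * ℓ) hℓ (by ring) hℓN hA hQ
  rw [← baseB_q0, ← mem_vertFinset hqB, hf2] at hp
  obtain ⟨i, rfl⟩ := hp
  fin_cases i
  · exact Or.inl (hf1 0)
  · exact Or.inr (Or.inl (hf1 1))
  · exact Or.inr (Or.inr (hf1 2))

end Plug

end Fermat.Agent.GL.TripleRegInst
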