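/-
GATE-L / L5-III (T2), FINAL FORM (helper28): REG at the triple points of the chart ring
`Bj = chartRing (R0 A) (jC (N' ℓ ℓ) (K0 A))` (= helper40 `BK0 A (N' ℓ ℓ)` = helper15 `B3K0`) with
helper15's (hB3) plugged (`RedInCThm.exists_cVal_eq_rdK2`, UNCONDITIONAL): the hypotheses are now
ONLY arithmetic (`ℓ ∤ N'`, `A | ℓ`, `h2 h3`, aux prime `r ∣ N'`, `r % 3 = 2`, `r % 4 = 3`) and the
position of the point (`x` lies on `C₁` and on `C₂`).

* `ufd_at_triple_chart_thm` : `UniqueFactorizationMonoid (Localization.AtPrime x)`;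
* `hreg_chart_thm` : the binder `hreg` of helper39 `H4Loc.hloc_triple` / `h4_core` for any family
  `P : T → Ideal Bj` of maximal ideals on `C₁ ∩ C₂`.
-/
import Fermat.Agent.GL.Reg.TripleRegInst
import Fermat.Agent.GL.Fibre.RedInCThm

set_option autoImplicit false
set_option linter.unusedSectionVars false

noncomputable section

namespace Fermat.Agent.GL.TripleRegFinal

open ModularCurve
open Fermat.Agent.S24 Fermat.Agent.GK.AL Fermat.Agent.GL.AL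
open Fermat.Agent.GL.Val.GaussK0 Fermat.Agent.GL.Val.SecondK0 Fermat.Agent.GL.Val.SecondK0Hall
open Fermat.Agent.GL.Val.ThirdK0 Fermat.Agent.GL.Val.DegBase
open Fermat.Agent.GL.Frame.Inst Fermat.Agent.GL.TripleRegInst

variable {N' : ℕ} [NeZero N'] {ℓ : ℕ} [Fact ℓ.Prime] [NeZero ℓ]
variable {A : ValuationSubring Kbar} (h : ExactDvd ℓ (N' * ℓ))
variable (hQ : HallDvd (ℓ ^ 2) (N' * ℓ * ℓ))
variable (hℓN : ¬ ℓ ∣ N') (hA : A.LiesOverPrime ℓ)

local notation "F1" => modularFunctionFieldFullC (K0 A) (N' * ℓ * ℓ)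
local notation "Bj" => chartRing (R0 A) (jC (N' * ℓ * ℓ) (K0 A))

include h hℓN hA in
/-- **REG AT A TRIPLE POINT OF THE CHART RING, no geometric hypothesis left.** -/
theorem ufd_at_triple_chart_thm (h2 : ℓ = 2 → 3 ∣ N') (h3 : ℓ = 3 → 2 ∣ N')
    {r : ℕ} (hr : r.Prime) (hrN : r ∣ N') (hr3 : r % 3 = 2) (hr4 : r % 4 = 3)
    (x : Ideal Bj) [x.IsPrime]
    (hx1 : ∀ b : Bj, (b : F1) ∈ (RwK0 A (N' * ℓ * ℓ)).nonunits → b ∈ x)
    (hx2 : ∀ b : Bj, (b : F1) ∈ (redData2QK0 A (N' * ℓ * ℓ) hQ).Rw.nonunits → b ∈ x) :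
    UniqueFactorizationMonoid (Localization.AtPrime x) :=
  ufd_at_triple_chart h hQ hℓN hA h2 h3 hr hrN hr3 hr4
    (fun x0 => (Fermat.Agent.GL.RedInCThm.exists_cVal_eq_rdK2 N' ℓ A hQ hℓN hA x0).imp
      fun _ hc => hc.symm) x hx1 hx2

include h hℓN hA in
/-- **`hreg` of helper39 `H4Loc.hloc_triple` / `h4_core`**, no geometric hypothesis left. -/
theorem hreg_chart_thm (h2 : ℓ = 2 → 3 ∣ N') (h3 : ℓ = 3 → 2 ∣ N')
    {r : ℕ} (hr : r.Prime) (hrN : r ∣ N') (hr3 : r % 3 = 2) (hr4 : r % 4 = 3)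
    {T : Type*} (P : T → Ideal Bj) (hmax : ∀ n, (P n).IsMaximal)
    (hk1 : ∀ n (b : Bj), (b : F1) ∈ (RwK0 A (N' * ℓ * ℓ)).nonunits → b ∈ P n)
    (hk2 : ∀ n (b : Bj), (b : F1) ∈ (redData2QK0 A (N' * ℓ * ℓ) hQ).Rw.nonunits → b ∈ P n) :
    ∀ n, ∃ _ : (P n).IsPrime, UniqueFactorizationMonoid (Localization.AtPrime (P n)) :=
  hreg_chart h hQ hℓN hA h2 h3 hr hrN hr3 hr4
    (fun x0 => (Fermat.Agent.GL.RedInCThm.exists_cVal_eq_rdK2 N' ℓ A hQ hℓN hA x0).imp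
      fun _ hc => hc.symm) P hmax hk1 hk2

end Fermat.Agent.GL.TripleRegFinal
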