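/-
GATE-L / (H4) arm, `hreg` + `hvert` at the CONCRETE `TripleSetup` (helper28): helper39
`H4Loc.hloc_triple` / `h4_core` / helper46 `h4_binder` want

  `hreg  : ∀ n, ∃ _ : (S.P n).IsPrime, UniqueFactorizationMonoid (Localization.AtPrime (S.P n))`
  `hvert : ∀ 𝔭 : HtOne B, qB ∈ 𝔭.1 → V1 F 𝔭 = S.W1 ∨ V1 F 𝔭 = S.W2 ∨ V1 F 𝔭 = S.W3`

at `S := setupK0Of A hq hqM hA s H hv` (helper40 `BuildInstPts`), `B := BK0 A (M' q q)`,
`qB := q`.  Both are theorems here: `hreg_setupK0Of` (= `TripleRegFinal.hreg_chart_thm` with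
`hk1 hk2 := H.hP1 H.hP2`; needs the aux prime `r ∣ M'` and `h2 h3`) and `hvert_setupK0Of`
(= `TripleRegInst.hvert_chart`).  PLUG-TESTED against `H4Loc.hloc_triple` (`hloc_setupK0Of`).
-/
import Fermat.Agent.GL.Reg.TripleRegFinal
import Fermat.Agent.GL.Final.BuildInstPts
import Fermat.Agent.GL.Final.H4Loc

set_option autoImplicit false
set_option linter.unusedSectionVars false

noncomputable section

namespace Fermat.Agent.GL.TripleRegSetup

open Polynomial ModularCurve IsLocalRing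
open Fermat.Agent.GL.Frame.Inst Fermat.Agent.GL.Frame.HeightOne Fermat.Agent.GL.Frame.Kummer
open Fermat.Agent.GL.H4OfXi Fermat.Agent.GL.TripleBuild Fermat.Agent.GL.BuildInst
open Fermat.Agent.GL.BuildInstPts
open Fermat.Agent.GL.Final.TriplePoints Fermat.Agent.GL.Final.TripleBuildPoints
open Fermat.Agent.GL.Val.GaussK0 Fermat.Agent.GL.Val.SecondK0 Fermat.Agent.GL.Val.SecondK0Hall
open Fermat.Agent.GL.Val.ThirdK0 Fermat.Agent.GL.Val.DegBase
open Fermat.Agent.Common_helper32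

attribute [local instance 2000] instAlgR0FullC instAlgBK0FullC instAlgR0BK0

variable (A : ValuationSubring Qb) {M' q : ℕ} [NeZero q] [NeZero M']
variable (hq : q.Prime) (hqM : ¬ q ∣ M') (hA : (q : Qb) ∈ A.nonunits) (s : (R0 A)[X])
variable (H : SsPts A hq hqM hA s) (hv : (buildK0 A hq hqM hA s H).Hval)

local notation "F₀" => modularFunctionFieldFullC (K0 A) (M' * q * q)

/-- **`hreg`** at the concrete `TripleSetup` over `K₀`. -/
theorem hreg_setupK0Of (h2 : q = 2 → 3 ∣ M') (h3 : q = 3 → 2 ∣ M')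
    {r : ℕ} (hr : r.Prime) (hrM : r ∣ M') (hr3 : r % 3 = 2) (hr4 : r % 4 = 3) :
    ∀ n, ∃ _ : ((setupK0Of A hq hqM hA s H hv).P n).IsPrime,
      UniqueFactorizationMonoid (Localization.AtPrime ((setupK0Of A hq hqM hA s H hv).P n)) := by
  have : Fact q.Prime := ⟨hq⟩
  exact Fermat.Agent.GL.TripleRegFinal.hreg_chart_thm
    (Fermat.Agent.GL.W3Table.exactDvd_level hq hqM) (Fermat.Agent.GL.AL.hallDvd_sq M' hq hqM)
    hqM hA h2 h3 hr hrM hr3 hr4 (fun n => ptIdeal n) (fun n => ptIdeal_isMaximal n)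
    (fun n b hb => H.hP1 n b hb) (fun n b hb => H.hP2 n b hb)

/-- **`hvert`** at the concrete `TripleSetup` over `K₀`, `qB := q`. -/
theorem hvert_setupK0Of [IsNoetherianRing (BK0 A (M' * q * q))]
    [IsIntegrallyClosed (BK0 A (M' * q * q))] [IsFractionRing (BK0 A (M' * q * q)) F₀] :
    ∀ 𝔭 : HtOne (BK0 A (M' * q * q)), ((q : ℕ) : BK0 A (M' * q * q)) ∈ 𝔭.1 →
      V1 F₀ 𝔭 = (setupK0Of A hq hqM hA s H hv).W1 ∨
        V1 F₀ 𝔭 = (setupK0Of A hq hqM hA s H hv).W2 ∨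
          V1 F₀ 𝔭 = (setupK0Of A hq hqM hA s H hv).W3 := by
  have : Fact q.Prime := ⟨hq⟩
  intro 𝔭 h𝔭
  exact Fermat.Agent.GL.TripleRegInst.hvert_chart (Fermat.Agent.GL.AL.hallDvd_sq M' hq hqM)
    hqM hA 𝔭 h𝔭

/-- **PLUG TEST**: helper39 `H4Loc.hloc_triple` at the concrete `TripleSetup` with `hreg`, `hvert`
discharged (only `hhoriz` = helper46 `hhoriz_K0` left). -/
theorem hloc_setupK0Of [IsNoetherianRing (BK0 A (M' * q * q))]
    [IsIntegrallyClosed (BK0 A (M' * q * q))] [IsFractionRing (BK0 A (M' * q * q)) F₀]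
    (h2 : q = 2 → 3 ∣ M') (h3 : q = 3 → 2 ∣ M')
    {r : ℕ} (hr : r.Prime) (hrM : r ∣ M') (hr3 : r % 3 = 2) (hr4 : r % 4 = 3)
    {m1 : ℕ} {u2 : F₀} (hu20 : u2 ≠ 0) (hU2 : U2 (setupK0Of A hq hqM hA s H hv) u2)
    (hhoriz : ∀ 𝔭 : HtOne (BK0 A (M' * q * q)), ((q : ℕ) : BK0 A (M' * q * q)) ∉ 𝔭.1 →
      ∃ z : F₀, z ≠ 0 ∧ UnitAt 𝔭 (u2 * z ^ m1))
    (n : PtType (RingHom.ker (residue (R0 A))) (jB A (M' * q * q)) s) :
    ∃ g : F₀, ∃ a s' : BK0 A (M' * q * q),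
      a ∉ (setupK0Of A hq hqM hA s H hv).P n ∧ s' ∉ (setupK0Of A hq hqM hA s H hv).P n ∧
        g ^ m1 * u2 * algebraMap (BK0 A (M' * q * q)) F₀ s' =
          algebraMap (BK0 A (M' * q * q)) F₀ a :=
  Fermat.Agent.GL.Final.H4Loc.hloc_triple (setupK0Of A hq hqM hA s H hv) hu20 hU2
    (hreg_setupK0Of A hq hqM hA s H hv h2 h3 hr hrM hr3 hr4)
    ((q : ℕ) : BK0 A (M' * q * q)) (hvert_setupK0Of A hq hqM hA s H hv) hhoriz n

end Fermat.Agent.GL.TripleRegSetup
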