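/-
GATE-L / L5-III (T1) CONCRETE over `K₀` (helper28): the THICKNESS ELEMENT at a node of level
`N' ℓ` (`ℓ ∥ N = N' ℓ`, `A | ℓ`), `K₀`-RATIONAL — the instance of `EtaReg.exists_lift_pow_eq`
(`GL/Reg/EtaThick.lean`) on K's objects `BRing`, `CRing`, `rho1`, `rho2`, `BT = gluedAlg Ψ J'`
(helper15), helper16's `etaQ` / `pow_div_etaQ_mem_BRing`, helper65/helper95's `redC1`,
`redC1_etaB_all`, helper45's `K₀`-layer (`mapK0Bar`, `e₂ = 1`: `exists_eq_q_mul₂`) and helper96's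
rational lifts (`RatLiftK0.exists_rat_lift_ball2`).

* `BRingK0`, `toB`, `rd1K0 : B_R →+* C`, `P2K0` (the vertical prime `{w₂ > 0}` of `B_R`);
* `div_mem_Rw2_of_mem_P2K0` : on `B_R`, `w₂ > 0` ⟹ `w₂ ≥ w(ℓ)` (`e₂ = 1` over `K₀`);
* `eta_dvd_pow` : `z ∈ P'₂ ∩ B_R` ⟹ `g ∣ z¹²` in `B_R` (hypothesis `hdiv`);
* `RatLiftP2`, `ratLiftP2_of_ortho` : the rational lifting property, from ORTH over `K₀`;
* `exists_mem_P2K0_of_mem_ideal` : `J' ⊆ rd₁ (P'₂ ∩ B_R)` (hypothesis `hJ`);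
* `rd1K0_eta : rd₁ g = pH(j~)`, `rd1K0_eta_ne_zero`; `exists_etaK0`;
* **`exists_thick_K0`** : `P` maximal, `J' ⊄ P²`, `pH(j~) ∈ P¹²` ⟹ `∃ y c ∈ B_R`, `w₂ y > 0`,
  `y¹² = g c`, `red₁ c ∉ P`;
* `not_le_sq_of_fixIdeal_le` : `J' ⊄ P²` from `fixIdeal Ψ ≤ J'`;
* **`exists_thick_K0_generic`** : the same at a node `φ` with `φ j~ ∉ {0, 1728}`, `5 ≤ ℓ`,
  UNCONDITIONALLY in (III) (helper63 `thick_series` via helper65 `rootMultiplicity_ssPoly_node`).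
-/
import Fermat.Agent.GL.Reg.EtaThick
import Fermat.Agent.GL.Thick.EtaNodesAll
import Fermat.Agent.GL.Red.RatLiftK0
import Fermat.Agent.GK.SS.CRingFacts
import Fermat.Agent.GK.Flat.DeltaLe
import Fermat.Agent.GK.Val.TwoVal

set_option autoImplicit false
set_option linter.unusedSectionVars false

noncomputable section

namespace Fermat.Agent.GL.EtaInst

open HahnSeries ModularCurve IsLocalRing Polynomial
open Fermat.Agent.S24 Fermat.Agent.GJ.J1 Fermat.Agent.GJ.J1.Val Fermat.Agent.S28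
open Fermat.Agent.GK.AL Fermat.Agent.GK.QS Fermat.Agent.GK.FrobGlue Fermat.Agent.GL.Eta
open Fermat.Agent.GL.Thick Fermat.Agent.GL.SmallQ
open Fermat.Agent.GL.Val.GaussK0 Fermat.Agent.GL.Val.SecondK0

variable {N' : ℕ} [NeZero N'] {ℓ : ℕ} [Fact ℓ.Prime] [NeZero ℓ]
variable {A : ValuationSubring Kbar} {h : ExactDvd ℓ (N' * ℓ)}
variable (hℓN : ¬ ℓ ∣ N') (hA : A.LiesOverPrime ℓ)

local notation "kA" => IsLocalRing.ResidueField A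
local notation "F0" => modularFunctionFieldFullC (K0 A) (N' * ℓ)

variable (N' ℓ A h) in
/-- the `K₀`-rational part of `B`: `B_R = {x0 ∈ K₀(X₀(N)) | x0 ∈ B}` -/
def BRingK0 : Subring F0 := (BRing N' ℓ A h).comap (mapK0Bar A (N' * ℓ))

variable (N' ℓ A h) in
/-- `B_R → B` -/
def toB : BRingK0 N' ℓ A h →+* BRing N' ℓ A h :=
  (mapK0Bar A (N' * ℓ)).restrict (BRingK0 N' ℓ A h) (BRing N' ℓ A h) (fun _ hx => hx)

theorem coe_toB (x : BRingK0 N' ℓ A h) :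
    ((toB N' ℓ A h x : BRing N' ℓ A h) : FN (N' * ℓ)) = mapK0Bar A (N' * ℓ) (x : F0) := rfl

/-- the first reduction on `B_R`, with values in the coordinate ring `C` -/
def rd1K0 : BRingK0 N' ℓ A h →+* CRing N' A := (redC1Hom hℓN hA).comp (toB N' ℓ A h)

variable (N' ℓ A h) in
/-- the vertical prime `P'₂ ∩ B_R = {w₂ > 0}` -/
def P2K0 : Ideal (BRingK0 N' ℓ A h) := RingHom.ker ((rho2 N' ℓ A h).comp (toB N' ℓ A h))

theorem mem_P2K0 {x : BRingK0 N' ℓ A h} :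
    x ∈ P2K0 N' ℓ A h ↔ rho2 N' ℓ A h (toB N' ℓ A h x) = 0 := Iff.rfl

include hA in
/-- **`e₂ = 1` on `B_R`**: an element of `P'₂ ∩ B_R` is `ℓ` times a `w₂`-integral element. -/
theorem div_mem_Rw2_of_mem_P2K0 {z : BRingK0 N' ℓ A h} (hz : z ∈ P2K0 N' ℓ A h) :
    mapK0Bar A (N' * ℓ) (z : F0) / (ℓ : FN (N' * ℓ)) ∈ (redData2 (N' * ℓ) A h).Rw := by
  have hℓp : ℓ.Prime := Fact.out
  have hz0 : rho2 N' ℓ A h (toB N' ℓ A h z) = 0 := hz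
  rw [rho2_apply] at hz0
  have hnon : mapK0Bar A (N' * ℓ) (z : F0) ∈ (redData2 (N' * ℓ) A h).Rw.nonunits := by
    refine (RedData_mem_nonunits_iff _ _).2 ⟨(toB N' ℓ A h z).2.2.2, ?_⟩
    exact Subtype.ext hz0
  have hnon0 : (z : F0) ∈ (redData2K0 A (N' * ℓ) h).Rw.nonunits :=
    (mem_nonunits_Rw2K0_iff A (N' * ℓ) h _).2 hnon
  obtain ⟨y, hy, hzy⟩ := exists_eq_q_mul₂ A (N' * ℓ) h hℓp hA _ hnon0
  have hℓ0 : (ℓ : FN (N' * ℓ)) ≠ 0 := Nat.cast_ne_zero.2 (NeZero.ne ℓ)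
  have h1 : mapK0Bar A (N' * ℓ) (z : F0) = (ℓ : FN (N' * ℓ)) * mapK0Bar A (N' * ℓ) y := by
    rw [hzy, map_mul, mapK0Bar_algebraMap, ι0_q0, map_natCast]
  rw [h1, mul_div_cancel_left₀ _ hℓ0]
  exact (mem_Rw2K0_iff A (N' * ℓ) h y).1 hy

include hA in
/-- **the power trick over `K₀`** (hypothesis `hdiv` of `EtaReg.exists_lift_pow_eq`): for a
`K₀`-rational model `e0` of `g = Δ(z)/Δ(ℓ z)`, `e0 ∣ z ^ 12` in `B_R` for every `z ∈ P'₂ ∩ B_R`. -/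
theorem eta_dvd_pow (e0 : BRingK0 N' ℓ A h)
    (he0 : mapK0Bar A (N' * ℓ) (e0 : F0) = etaQ (N' * ℓ) ℓ h.dvd)
    {z : BRingK0 N' ℓ A h} (hz : z ∈ P2K0 N' ℓ A h) : e0 ∣ z ^ 12 := by
  have hy2 := div_mem_Rw2_of_mem_P2K0 hA hz
  have hmem := pow_div_etaQ_mem_BRing (toB N' ℓ A h z).2 hy2
  have he00 : (e0 : F0) ≠ 0 := by
    intro h0
    have := etaQ_ne_zero (N' * ℓ) ℓ h.dvd
    rw [← he0, h0, map_zero] at this
    exact this rfl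
  have hc0 : (z : F0) ^ 12 / (e0 : F0) ∈ BRingK0 N' ℓ A h := by
    show mapK0Bar A (N' * ℓ) ((z : F0) ^ 12 / (e0 : F0)) ∈ BRing N' ℓ A h
    rw [map_div₀, map_pow, he0]
    exact hmem
  refine ⟨⟨_, hc0⟩, Subtype.ext ?_⟩
  show (z : F0) ^ 12 = (e0 : F0) * ((z : F0) ^ 12 / (e0 : F0))
  field_simp

variable (N' ℓ A h) in
/-- **the rational lifting hypothesis** (L5e, helper96 `RatLiftK0.exists_rat_lift_ball2`): every
`x ∈ B` with `red₂ x = 0` has a `K₀`-rational `x0 ∈ B_R` with the same two reductions. -/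
def RatLiftP2 : Prop :=
  ∀ x : BRing N' ℓ A h, rho2 N' ℓ A h x = 0 → ∃ x0 : BRingK0 N' ℓ A h,
    rho1 N' ℓ A h (toB N' ℓ A h x0) = rho1 N' ℓ A h x ∧ rho2 N' ℓ A h (toB N' ℓ A h x0) = 0

/-- hypothesis `hJ` of `EtaReg.exists_lift_pow_eq` over `K₀`: `J' ⊆ rd₁ (P'₂ ∩ B_R)`. -/
theorem exists_mem_P2K0_of_mem_ideal (hrat : RatLiftP2 N' ℓ A h) {J' : Ideal (CRing N' A)}
    (hJ' : BT N' ℓ A h = gluedAlg (psiC N' ℓ A hℓN hA) J') {a : CRing N' A} (ha : a ∈ J') :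
    ∃ y ∈ P2K0 N' ℓ A h, rd1K0 hℓN hA y = a := by
  have h1 : ((a, 0) : CRing N' A × CRing N' A) ∈ gluedAlg (psiC N' ℓ A hℓN hA) J' := by
    rw [mem_gluedAlg]
    simpa using ha
  rw [← hJ', mem_BT] at h1
  obtain ⟨x, hx1, hx2⟩ := h1
  rw [map_zero] at hx2
  obtain ⟨x0, hx01, hx02⟩ := hrat x hx2
  refine ⟨x0, hx02, ?_⟩
  exact redC1_eq_of_cVal hℓN hA _ (by rw [hx01, hx1])

/-- `rd₁ g ≠ 0` -/
theorem rd1K0_eta_ne_zero (e0 : BRingK0 N' ℓ A h)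
    (he0 : mapK0Bar A (N' * ℓ) (e0 : F0) = etaQ (N' * ℓ) ℓ h.dvd) : rd1K0 hℓN hA e0 ≠ 0 := by
  intro h0
  have h1 : toB N' ℓ A h e0 = etaB N' ℓ A h (ValuationSubring.nonunits_le hA) :=
    Subtype.ext he0
  have h2 : cVal N' A (rd1K0 hℓN hA e0) = uInvS kA ℓ := by
    show cVal N' A (redC1 hℓN hA (toB N' ℓ A h e0)) = _
    rw [cVal_redC1, h1, rho1_etaB]
  rw [h0, map_zero] at h2
  have h3 := uS_mul_uInvS (R := kA) ℓ
  rw [← h2, mul_zero] at h3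
  exact zero_ne_one h3

/-- `rd₁ g = pH(j~)` -/
theorem rd1K0_eta (e0 : BRingK0 N' ℓ A h)
    (he0 : mapK0Bar A (N' * ℓ) (e0 : F0) = etaQ (N' * ℓ) ℓ h.dvd) :
    rd1K0 hℓN hA e0 =
      aeval (jtC N' A) (@ssPolyAll ℓ _ kA _ (charP_residue A Fact.out hA)) := by
  have h1 : toB N' ℓ A h e0 = etaB N' ℓ A h (ValuationSubring.nonunits_le hA) :=
    Subtype.ext he0
  show redC1 hℓN hA (toB N' ℓ A h e0) = _
  rw [h1, redC1_etaB_all]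

/-- **THICKNESS ONE OVER `K₀` AT A NODE** (L5-III (T1), concrete, hypothesis form).
`J'` the node ideal (`B~ = gluedAlg Ψ J'`), `P` a maximal ideal of `C` with `J' ⊄ P²`,
(III) `pH(j~) ∈ P¹²`, rational lifts (L5e).  Then there are `K₀`-RATIONAL `y, c ∈ B_R` with
`w₂(y) > 0`, `y¹² = g · c` and `red₁ c ∉ P`. -/
theorem exists_thick_K0 (hrat : RatLiftP2 N' ℓ A h) {J' : Ideal (CRing N' A)}
    (hJ' : BT N' ℓ A h = gluedAlg (psiC N' ℓ A hℓN hA) J')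
    (e0 : BRingK0 N' ℓ A h) (he0 : mapK0Bar A (N' * ℓ) (e0 : F0) = etaQ (N' * ℓ) ℓ h.dvd)
    {P : Ideal (CRing N' A)} (hP : P.IsMaximal) (hJP2 : ¬ J' ≤ P ^ 2)
    (hIII : aeval (jtC N' A) (@ssPolyAll ℓ _ kA _ (charP_residue A Fact.out hA)) ∈ P ^ 12) :
    ∃ y ∈ P2K0 N' ℓ A h, ∃ c : BRingK0 N' ℓ A h, y ^ 12 = e0 * c ∧ rd1K0 hℓN hA c ∉ P := by
  have : IsDedekindDomain (CRing N' A) :=
    Fermat.Agent.GK.SS.Modular.isDedekindDomain_CRing N' ℓ A hA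
  refine EtaReg.exists_lift_pow_eq (rd1K0 hℓN hA) (P2K0 N' ℓ A h) (J := J') (g := e0) (n := 12)
    (fun a ha => exists_mem_P2K0_of_mem_ideal hℓN hA hrat hJ' ha)
    (fun z hz => eta_dvd_pow hA e0 he0 hz) hP hJP2 ?_ (rd1K0_eta_ne_zero hℓN hA e0 he0)
  rw [rd1K0_eta hℓN hA e0 he0]
  exact hIII

section RatLift

open Fermat.Agent.GK.MultiVal

include hA in
/-- **`RatLiftP2` from ORTH over `K₀`** (helper96 `RatLiftK0.exists_rat_lift_ball2`; the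
hypothesis `ho` is helper45's `hasOrthoBasesK0`). -/
theorem ratLiftP2_of_ortho
    (ho : HasOrthoBases (R0 A) (ball2 (redDataK0 A (N' * ℓ)) (redData2K0 A (N' * ℓ) h))
      (rad2 (redDataK0 A (N' * ℓ)) (redData2K0 A (N' * ℓ) h))) : RatLiftP2 N' ℓ A h := by
  intro x _
  have hℓp : ℓ.Prime := Fact.out
  obtain ⟨n, hn⟩ := Fermat.Agent.GK.Flat.exists_mem_Lfib_of_regFin (k := Kbar)
    (Fermat.Agent.GK.BallTwo.jF_ne_zero (N' * ℓ)) x.2.1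
  obtain ⟨x0, h1, h2, h3, h4, h5⟩ := Fermat.Agent.GL.RatLiftK0.exists_rat_lift_ball2 A (N' * ℓ)
    hℓp hA h (Fermat.Agent.GK.Val.TwoVal.redCompat N' ℓ A h) ho (t := jF (N' * ℓ))
    (fun σ _ => by rw [jF_eq_gen, galF_gen]) (n : ℤ) x.2.2.1 x.2.2.2 hn
  have hx0B : mapK0Bar A (N' * ℓ) x0 ∈ BRing N' ℓ A h :=
    ⟨(G1.mem_Lfib_iff_of_isAlgClosed.1 h3).1, (mem_Rw1K0_iff A (N' * ℓ) x0).1 h1,
      (mem_Rw2K0_iff A (N' * ℓ) h x0).1 h2⟩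
  have key : ∀ (R : RedData Kbar (FN (N' * ℓ)) kA (FresBar (N' * ℓ) A)) (a b : FN (N' * ℓ))
      (ha : a ∈ R.Rw) (hb : b ∈ R.Rw), R.Rw.valuation (a - b) < 1 →
      R.red ⟨b, hb⟩ = R.red ⟨a, ha⟩ := by
    intro R a b ha hb hlt
    have hnon : a - b ∈ R.Rw.nonunits := (ValuationSubring.mem_nonunits_iff _).2 hlt
    obtain ⟨hab, h0⟩ := (RedData_mem_nonunits_iff R _).1 hnon
    have h6 : (⟨a - b, hab⟩ : R.Rw) = ⟨a, ha⟩ - ⟨b, hb⟩ := rfl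
    rw [h6, map_sub, sub_eq_zero] at h0
    exact h0.symm
  refine ⟨⟨x0, hx0B⟩, ?_, ?_⟩
  · rw [rho1_apply, rho1_apply]
    exact congrArg _ (key _ _ _ x.2.2.1 hx0B.2.1 h4)
  · rw [rho2_apply]
    have h7 := key _ _ _ x.2.2.2 hx0B.2.2 h5
    have h8 : rho2 N' ℓ A h x = 0 := ‹_›
    rw [rho2_apply] at h8
    show (((redData2 (N' * ℓ) A h).red ⟨mapK0Bar A (N' * ℓ) x0, hx0B.2.2⟩ :
      FresBar (N' * ℓ) A) : LaurentSeries kA) = 0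
    rw [h7]
    exact h8

end RatLift

/-! ### The rational model of `g`, `J' ⊄ P²`, and the generic nodes -/

include hA in
/-- a `K₀`-rational model of `g = Δ(z)/Δ(ℓ z)` in `B_R` -/
theorem exists_etaK0 :
    ∃ e0 : BRingK0 N' ℓ A h, mapK0Bar A (N' * ℓ) (e0 : F0) = etaQ (N' * ℓ) ℓ h.dvd := by
  obtain ⟨x0, hx0⟩ := Fermat.Agent.GL.RatLiftK0.exists_mapK0Bar_of_fixed A (N' * ℓ)
    (etaQ (N' * ℓ) ℓ h.dvd) (fun σ _ => galF_etaQ (N' * ℓ) ℓ h.dvd σ)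
  refine ⟨⟨x0, ?_⟩, hx0⟩
  show mapK0Bar A (N' * ℓ) x0 ∈ BRing N' ℓ A h
  rw [hx0]
  exact etaQ_mem_BRing N' ℓ A h (ValuationSubring.nonunits_le hA)

/-- `J' ⊄ P²` for every maximal `P`, from `fixIdeal Ψ ≤ J'` (K-N6). -/
theorem not_le_sq_of_fixIdeal_le {J' : Ideal (CRing N' A)}
    (hfix : fixIdeal (psiC N' ℓ A hℓN hA) ≤ J')
    (hΨ : ∀ a, ∃ b, psiC N' ℓ A hℓN hA a = b ^ ℓ)
    {P : Ideal (CRing N' A)} (hP : P.IsMaximal) : ¬ J' ≤ P ^ 2 := by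
  have hℓp : ℓ.Prime := Fact.out
  have : IsDedekindDomain (CRing N' A) :=
    Fermat.Agent.GK.SS.Modular.isDedekindDomain_CRing N' ℓ A hA
  intro hle
  exact fixIdeal_not_le_sq (psiC N' ℓ A hℓN hA)
    (Fermat.Agent.GK.SS.Modular.not_isField_CRing N' A) hℓp.two_le hΨ P hP (hfix.trans hle)

/-- **thickness one over `K₀` at a GENERIC node** (`φ j~ ∉ {0, 1728}`, `5 ≤ ℓ`): (III) is
helper63's `thick_series`; no count, no genus, no aux prime. -/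
theorem exists_thick_K0_generic (hq5 : 5 ≤ ℓ) (hrat : RatLiftP2 N' ℓ A h)
    {J' : Ideal (CRing N' A)}
    (hJ' : BT N' ℓ A h = gluedAlg (psiC N' ℓ A hℓN hA) J')
    (e0 : BRingK0 N' ℓ A h) (he0 : mapK0Bar A (N' * ℓ) (e0 : F0) = etaQ (N' * ℓ) ℓ h.dvd)
    (φ : CRing N' A →ₐ[kA] kA) (hφ : J' ≤ RingHom.ker φ.toRingHom)
    (hJP2 : ¬ J' ≤ RingHom.ker φ.toRingHom ^ 2)
    (h0 : φ (jtC N' A) ≠ 0) (h1728 : φ (jtC N' A) ≠ 1728) :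
    ∃ y ∈ P2K0 N' ℓ A h, ∃ c : BRingK0 N' ℓ A h, y ^ 12 = e0 * c ∧ φ (rd1K0 hℓN hA c) ≠ 0 := by
  have hP : (RingHom.ker φ.toRingHom).IsMaximal :=
    RingHom.ker_isMaximal_of_surjective φ.toRingHom (fun c => ⟨algebraMap kA _ c, φ.commutes c⟩)
  have hmult := (rootMultiplicity_ssPoly_node hℓN hA hq5 hJ' φ hφ h0 h1728).2
  have hj : jtC N' A - algebraMap kA (CRing N' A) (φ (jtC N' A)) ∈ RingHom.ker φ.toRingHom := by
    rw [RingHom.mem_ker]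
    show φ (jtC N' A - algebraMap kA (CRing N' A) (φ (jtC N' A))) = 0
    rw [map_sub, φ.commutes, Algebra.algebraMap_self_apply, sub_self]
  have hIII := EtaReg.aeval_mem_pow_of_rootMultiplicity hmult hj
  rw [← @ssPolyAll_of_le ℓ _ kA _ (charP_residue A Fact.out hA) hq5] at hIII
  obtain ⟨y, hy, c, hyc, hc⟩ := exists_thick_K0 hℓN hA hrat hJ' e0 he0 hP hJP2 hIII
  exact ⟨y, hy, c, hyc, fun h => hc h⟩

end Fermat.Agent.GL.EtaInst
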