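/-
GATE-L / L5-III (T2) (helper28): REG AT A TRIPLE POINT BY PULL-BACK OF THE THICKNESS ELEMENT —
the level `q²M` half of the ETA-route (board 2469 / 2677 (V2)-III / ruling 2874), hypothesis form.

Level `qM`: `B'`, `rd1 : B' → C` (Dedekind), `P2'`, `J`, `g` (eta quotient), `n = 12`, node `P`
as in `GL/Reg/EtaThick.lean`; level `q²M`: `O` = local ring at the triple point `x`
(integrally closed noetherian local domain), `PO = P₂ · O` the vertical prime of `C₂`,
`α : B' → O` the pull-back along the degeneracy map (`x` lies over the node `P`).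

* `isDedekindDomain_of_ringEquiv` : Dedekind domains are stable under ring isomorphisms
  (to feed `B ⧸ P₂ ≃ D₂ = rd₂(B)`).
* `exists_isDiscreteValuationRing_quotient_map` : `P₂ < x`, `B ⧸ P₂` Dedekind ⟹
  `O_x ⧸ P₂ O_x` is a DVR (the local ring of `C₂` at the branch point).
* `exists_eq_span_singleton_of_eta` : `PO = (α y)`, `α y ≠ 0` for the thickness element `y`.
* **`ufd_of_eta`**, **`divPrincipal_of_eta`** : `O` is a UFD / satisfies helper46's
  `KrullFrame.DivPrincipal` (the form consumed by (LOC-gen), helper47 (FR4) / helper35 LocGlue).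
* `ufd_atPrime_of_eta`, `divPrincipal_atPrime_of_eta` : the same for `O = B_x`, `α : B' → B`,
  with the DVR hypothesis discharged from `B ⧸ P₂` Dedekind.
* `dvd_pow_of_forall_over` : the integrality input `α g ∣ zⁿ` in `O_x` from a Krull frame
  (`zⁿ / α g ∈ V v` for the `v` over `x`: the row `w(α g) = (0, 12, 0)` of the valuation table
  + `α g` a unit at the horizontal `v` through `x`).
-/
import Fermat.Agent.GL.Reg.EtaThick
import Fermat.Agent.GL.Local.KrullFrame

set_option autoImplicit false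

namespace Fermat.Agent.GL.EtaReg

/-- Dedekind domains are stable under ring isomorphisms. -/
theorem isDedekindDomain_of_ringEquiv {A D : Type*} [CommRing A] [CommRing D] (e : A ≃+* D)
    [IsDedekindDomain D] : IsDedekindDomain A := by
  have hdom : IsDomain A := e.toMulEquiv.isDomain D
  have hnoeth : IsNoetherianRing A := isNoetherianRing_of_ringEquiv D e.symm
  have hic : IsIntegrallyClosed A := IsIntegrallyClosed.of_equiv e.symm
  have hdim : Ring.DimensionLEOne A := by
    refine ⟨fun {p} hp0 hp => ?_⟩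
    have hq : (p.comap (e.symm : D →+* A)).IsPrime := Ideal.comap_isPrime _ p
    have hq0 : p.comap (e.symm : D →+* A) ≠ ⊥ := by
      intro h0
      apply hp0
      rw [eq_bot_iff]
      intro a ha
      have : e a ∈ p.comap (e.symm : D →+* A) := by
        rw [Ideal.mem_comap]
        simpa using ha
      rw [h0, Ideal.mem_bot] at this
      rw [Ideal.mem_bot]
      exact (map_eq_zero_iff e e.injective).mp this
    have hmax : (p.comap (e.symm : D →+* A)).IsMaximal := Ring.DimensionLEOne.maximalOfPrime hq0 hq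
    have heq : p = (p.comap (e.symm : D →+* A)).comap (e : A →+* D) := by
      ext a
      simp
    rw [heq]
    exact Ideal.comap_isMaximal_of_equiv e
  exact { }

section DvrQuotient

variable {B : Type*} [CommRing B] (x : Ideal B) [x.IsPrime] (P2 : Ideal B)

/-- the image of the complement of `x` in `B ⧸ P2` is the complement of the image of `x`. -/
theorem algebraMapSubmonoid_primeCompl_eq (hle : P2 ≤ x)
    [hprime : (x.map (Ideal.Quotient.mk P2)).IsPrime] :
    Algebra.algebraMapSubmonoid (B ⧸ P2) x.primeCompl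
      = (x.map (Ideal.Quotient.mk P2)).primeCompl := by
  ext t
  constructor
  · rintro ⟨s, hs, rfl⟩
    intro hmem
    apply hs
    have h1 : s ∈ (x.map (Ideal.Quotient.mk P2)).comap (Ideal.Quotient.mk P2) := hmem
    rw [Ideal.comap_map_of_surjective _ Ideal.Quotient.mk_surjective, ← RingHom.ker_eq_comap_bot,
      Ideal.mk_ker, sup_eq_left.mpr hle] at h1
    exact h1
  · intro ht
    obtain ⟨s, rfl⟩ := Ideal.Quotient.mk_surjective t
    refine ⟨s, fun hs => ht (Ideal.mem_map_of_mem _ hs), rfl⟩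

/-- **`O_x ⧸ P2 O_x` is a DVR** when `B ⧸ P2` is a Dedekind domain and `P2 < x`
(`O_x ⧸ P2 O_x` is the local ring of the Dedekind ring `B ⧸ P2` at the image of `x`). -/
theorem exists_isDiscreteValuationRing_quotient_map (hlt : P2 < x) [IsDedekindDomain (B ⧸ P2)]
    (O : Type*) [CommRing O] [Algebra B O] [IsLocalization.AtPrime O x] :
    ∃ _ : IsDomain (O ⧸ P2.map (algebraMap B O)),
      IsDiscreteValuationRing (O ⧸ P2.map (algebraMap B O)) := by
  have hle : P2 ≤ x := hlt.le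
  have hprime : (x.map (Ideal.Quotient.mk P2)).IsPrime :=
    Ideal.map_isPrime_of_surjective Ideal.Quotient.mk_surjective (by rwa [Ideal.mk_ker])
  have hloc : IsLocalization (Algebra.algebraMapSubmonoid (B ⧸ P2) x.primeCompl)
      (O ⧸ P2.map (algebraMap B O)) := inferInstance
  rw [algebraMapSubmonoid_primeCompl_eq x P2 hle] at hloc
  have hdom : IsDomain (O ⧸ P2.map (algebraMap B O)) :=
    IsLocalization.isDomain_of_le_nonZeroDivisors _
      (x.map (Ideal.Quotient.mk P2)).primeCompl_le_nonZeroDivisors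
  have hne : x.map (Ideal.Quotient.mk P2) ≠ ⊥ := by
    intro h0
    obtain ⟨s, hsx, hsP⟩ := SetLike.exists_of_lt hlt
    have h1 : Ideal.Quotient.mk P2 s ∈ x.map (Ideal.Quotient.mk P2) := Ideal.mem_map_of_mem _ hsx
    rw [h0, Ideal.mem_bot, Ideal.Quotient.eq_zero_iff_mem] at h1
    exact hsP h1
  have : IsLocalization.AtPrime (O ⧸ P2.map (algebraMap B O)) (x.map (Ideal.Quotient.mk P2)) :=
    hloc
  exact ⟨hdom, IsLocalization.AtPrime.isDiscreteValuationRing_of_dedekind_domain (B ⧸ P2) hne _⟩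

end DvrQuotient

section Pull

variable {B' C O : Type*} [CommRing B'] [CommRing C] [IsDedekindDomain C]
  [CommRing O] [IsDomain O] [IsIntegrallyClosed O]

/-- **the vertical prime `PO` at the triple point is generated by the pulled-back thickness
element**: `PO = (α y)`, `α y ≠ 0`. -/
theorem exists_eq_span_singleton_of_eta (rd1 : B' →+* C) (P2' : Ideal B') {J P : Ideal C}
    {g : B'} {n : ℕ} (hn : n ≠ 0)
    (hJ : ∀ a ∈ J, ∃ y ∈ P2', rd1 y = a) (hdiv : ∀ z ∈ P2', g ∣ z ^ n)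
    (hP : P.IsMaximal) (hJP2 : ¬ J ≤ P ^ 2) (hg : rd1 g ∈ P ^ n) (hg0 : rd1 g ≠ 0)
    (α : B' →+* O) (PO : Ideal O)
    (hαunit : ∀ c : B', rd1 c ∉ P → IsUnit (α c))
    (hαP : ∀ y ∈ P2', α y ∈ PO) (hPO : ∀ z ∈ PO, α g ∣ z ^ n) (hαg : α g ≠ 0) :
    ∃ y ∈ P2', PO = Ideal.span {α y} ∧ α y ≠ 0 := by
  obtain ⟨y, hy, c, hyc, hc⟩ := exists_lift_pow_eq rd1 P2' hJ hdiv hP hJP2 hg hg0
  have hyc' : α y ^ n = α g * α c := by rw [← map_pow, hyc, map_mul]
  refine ⟨y, hy, PowTrick.eq_span_singleton_of_pow hn hPO (hαP y hy) (hαunit c hc) hyc', ?_⟩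
  intro h0
  rw [h0, zero_pow hn] at hyc'
  exact (mul_ne_zero hαg (hαunit c hc).ne_zero) hyc'.symm

variable [IsLocalRing O] [IsNoetherianRing O]

/-- **REG at the triple point, UFD form** (ETA-route): with the level-`qM` thickness data at the
node `P` and the pull-back `α : B' → O` to the local ring `O` at the triple point, `O ⧸ PO` a
DVR, `α g ∣ z ^ n` for `z ∈ PO`: `O` is a UFD. -/
theorem ufd_of_eta (rd1 : B' →+* C) (P2' : Ideal B') {J P : Ideal C}
    {g : B'} {n : ℕ} (hn : n ≠ 0)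
    (hJ : ∀ a ∈ J, ∃ y ∈ P2', rd1 y = a) (hdiv : ∀ z ∈ P2', g ∣ z ^ n)
    (hP : P.IsMaximal) (hJP2 : ¬ J ≤ P ^ 2) (hg : rd1 g ∈ P ^ n) (hg0 : rd1 g ≠ 0)
    (α : B' →+* O) (PO : Ideal O) [IsDomain (O ⧸ PO)] [IsDiscreteValuationRing (O ⧸ PO)]
    (hαunit : ∀ c : B', rd1 c ∉ P → IsUnit (α c))
    (hαP : ∀ y ∈ P2', α y ∈ PO) (hPO : ∀ z ∈ PO, α g ∣ z ^ n) (hαg : α g ≠ 0) :
    UniqueFactorizationMonoid O := by
  obtain ⟨y, -, rfl, hy0⟩ := exists_eq_span_singleton_of_eta rd1 P2' hn hJ hdiv hP hJP2 hg hg0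
    α PO hαunit hαP hPO hαg
  exact RegTwo.ufd_of_quotient_dvr (α y) hy0

/-- **REG at the triple point, `DivPrincipal` form** (the shape consumed by (LOC-gen)). -/
theorem divPrincipal_of_eta {F : Type*} [Field F] [Algebra O F] [IsFractionRing O F]
    (rd1 : B' →+* C) (P2' : Ideal B') {J P : Ideal C}
    {g : B'} {n : ℕ} (hn : n ≠ 0)
    (hJ : ∀ a ∈ J, ∃ y ∈ P2', rd1 y = a) (hdiv : ∀ z ∈ P2', g ∣ z ^ n)
    (hP : P.IsMaximal) (hJP2 : ¬ J ≤ P ^ 2) (hg : rd1 g ∈ P ^ n) (hg0 : rd1 g ≠ 0)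
    (α : B' →+* O) (PO : Ideal O) [IsDomain (O ⧸ PO)] [IsDiscreteValuationRing (O ⧸ PO)]
    (hαunit : ∀ c : B', rd1 c ∉ P → IsUnit (α c))
    (hαP : ∀ y ∈ P2', α y ∈ PO) (hPO : ∀ z ∈ PO, α g ∣ z ^ n) (hαg : α g ≠ 0) :
    KrullFrame.DivPrincipal O F := by
  obtain ⟨y, -, rfl, hy0⟩ := exists_eq_span_singleton_of_eta rd1 P2' hn hJ hdiv hP hJP2 hg hg0
    α PO hαunit hαP hPO hαg
  exact KrullFrame.divPrincipal_of_prime (DvrQuot.prime_of_isDomain_quotient hy0)

end Pull

section AtPrime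

variable {B' C B : Type*} [CommRing B'] [CommRing C] [IsDedekindDomain C]
  [CommRing B] [IsDomain B] [IsIntegrallyClosed B] [IsNoetherianRing B]

/-- **REG at the triple point `x` of the chart `B`, UFD form.**  `α : B' → B` the pull-back,
`x` a prime of `B` over the node (`α c ∈ x → rd1 c ∈ P`), `P2 < x` the vertical prime of `C₂` with
`B ⧸ P2` Dedekind, `α (P2') ⊆ P2`, and `α g ∣ z ^ n` in `O = B_x` for `z ∈ P2 · O`. -/
theorem ufd_atPrime_of_eta (rd1 : B' →+* C) (P2' : Ideal B') {J P : Ideal C}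
    {g : B'} {n : ℕ} (hn : n ≠ 0)
    (hJ : ∀ a ∈ J, ∃ y ∈ P2', rd1 y = a) (hdiv : ∀ z ∈ P2', g ∣ z ^ n)
    (hP : P.IsMaximal) (hJP2 : ¬ J ≤ P ^ 2) (hg : rd1 g ∈ P ^ n) (hg0 : rd1 g ≠ 0)
    (α : B' →+* B) (x : Ideal B) [x.IsPrime] (P2 : Ideal B) (hlt : P2 < x)
    [IsDedekindDomain (B ⧸ P2)]
    (hαx : ∀ c : B', α c ∈ x → rd1 c ∈ P) (hαP : ∀ y ∈ P2', α y ∈ P2) (hαg : α g ≠ 0)
    (O : Type*) [CommRing O] [Algebra B O] [IsLocalization.AtPrime O x]
    (hPO : ∀ z ∈ P2.map (algebraMap B O), algebraMap B O (α g) ∣ z ^ n) :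
    UniqueFactorizationMonoid O := by
  have hle : x.primeCompl ≤ nonZeroDivisors B := x.primeCompl_le_nonZeroDivisors
  have : IsDomain O := IsLocalization.isDomain_of_le_nonZeroDivisors O hle
  have : IsIntegrallyClosed O := isIntegrallyClosed_of_isLocalization O x.primeCompl hle
  have : IsLocalRing O := IsLocalization.AtPrime.isLocalRing O x
  have : IsNoetherianRing O := IsLocalization.isNoetherianRing x.primeCompl O inferInstance
  obtain ⟨hdom, hdvr⟩ := exists_isDiscreteValuationRing_quotient_map x P2 hlt O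
  refine ufd_of_eta rd1 P2' hn hJ hdiv hP hJP2 hg hg0 ((algebraMap B O).comp α)
    (P2.map (algebraMap B O)) ?_ ?_ hPO ?_
  · intro c hc
    exact IsLocalization.map_units O (⟨α c, fun h => hc (hαx c h)⟩ : x.primeCompl)
  · intro y hy
    exact Ideal.mem_map_of_mem _ (hαP y hy)
  · intro h0
    exact hαg ((map_eq_zero_iff _ (IsLocalization.injective O hle)).mp h0)

/-- **REG at the triple point `x` of the chart `B`, `DivPrincipal` form.** -/
theorem divPrincipal_atPrime_of_eta (rd1 : B' →+* C) (P2' : Ideal B') {J P : Ideal C}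
    {g : B'} {n : ℕ} (hn : n ≠ 0)
    (hJ : ∀ a ∈ J, ∃ y ∈ P2', rd1 y = a) (hdiv : ∀ z ∈ P2', g ∣ z ^ n)
    (hP : P.IsMaximal) (hJP2 : ¬ J ≤ P ^ 2) (hg : rd1 g ∈ P ^ n) (hg0 : rd1 g ≠ 0)
    (α : B' →+* B) (x : Ideal B) [x.IsPrime] (P2 : Ideal B) (hlt : P2 < x)
    [IsDedekindDomain (B ⧸ P2)]
    (hαx : ∀ c : B', α c ∈ x → rd1 c ∈ P) (hαP : ∀ y ∈ P2', α y ∈ P2) (hαg : α g ≠ 0)
    (O : Type*) [CommRing O] [IsDomain O] [Algebra B O] [IsLocalization.AtPrime O x]
    (hPO : ∀ z ∈ P2.map (algebraMap B O), algebraMap B O (α g) ∣ z ^ n)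
    {F : Type*} [Field F] [Algebra O F] [IsFractionRing O F] :
    KrullFrame.DivPrincipal O F := by
  have hle : x.primeCompl ≤ nonZeroDivisors B := x.primeCompl_le_nonZeroDivisors
  have : IsIntegrallyClosed O := isIntegrallyClosed_of_isLocalization O x.primeCompl hle
  have : IsLocalRing O := IsLocalization.AtPrime.isLocalRing O x
  have : IsNoetherianRing O := IsLocalization.isNoetherianRing x.primeCompl O inferInstance
  obtain ⟨hdom, hdvr⟩ := exists_isDiscreteValuationRing_quotient_map x P2 hlt O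
  refine divPrincipal_of_eta rd1 P2' hn hJ hdiv hP hJP2 hg hg0 ((algebraMap B O).comp α)
    (P2.map (algebraMap B O)) ?_ ?_ hPO ?_
  · intro c hc
    exact IsLocalization.map_units O (⟨α c, fun h => hc (hαx c h)⟩ : x.primeCompl)
  · intro y hy
    exact Ideal.mem_map_of_mem _ (hαP y hy)
  · intro h0
    exact hαg ((map_eq_zero_iff _ (IsLocalization.injective O hle)).mp h0)

end AtPrime

section Frame

open KrullFrame

variable {A F : Type*} [CommRing A] [IsDomain A] [Field F] [Algebra A F] [IsFractionRing A F]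
  {𝒱 : Type*} {V : 𝒱 → ValuationSubring F}

/-- **the integrality input from a Krull frame**: in `O = A_x`, `g' ∣ z ^ n` as soon as
`z ^ n / g'` is integral at every `v` over `x`. -/
theorem dvd_pow_of_forall_over (hV : IsFrame A V) (x : Ideal A) [x.IsPrime]
    (O : Type*) [CommRing O] [Algebra A O] [IsLocalization.AtPrime O x] [Algebra O F]
    [IsScalarTower A O F] {g' z : O} {n : ℕ} (hg0 : algebraMap O F g' ≠ 0)
    (hinj : Function.Injective (algebraMap O F))
    (h : ∀ v, Over V x v → (algebraMap O F z) ^ n / algebraMap O F g' ∈ V v) : g' ∣ z ^ n := by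
  obtain ⟨o, ho⟩ := (hV.mem_range_loc_iff x O _).mpr h
  refine ⟨o, hinj ?_⟩
  rw [map_mul, map_pow, ho]
  field_simp

end Frame

end Fermat.Agent.GL.EtaReg
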