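/-
GATE-L / L5-III (T2) ASSEMBLY, abstract layer (helper28): REG AT A TRIPLE POINT IN THE FRAME
LANGUAGE — `TriplePull.ufd_atPrime_of_eta` with its integrality input `hPO` DISCHARGED from the
height-one frame of the chart ring (helper80 `HeightOneFrame`), and the node `P` below the triple
point constructed from the point itself.

Level `qM`: `B'`, `rd1 : B' ↠ C` (Dedekind), `P2'`, `J` (node ideal), `g` (eta quotient), `n = 12`,
`q ∈ P2' ∩ ker rd1` (the residue characteristic).  Level `q²M`: `B` a noetherian integrally closed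
domain with fraction field `F` (the `j`-chart), `α : B' → B` the pull-back, `x` a prime of `B`
over a node (`α (ker rd1) ⊆ x`, `α (P2') ⊆ x`), `W2` the valuation ring of the component `C₂`,
`rd2 : B ↠ D` (Dedekind) with kernel `{w₂ > 0}`.

* `dvd_pow_of_vert` : `α g ∣ z ^ n` in `O_x` for `z ∈ P₂ O_x`, from
  `g c0 = q ^ n`, `e(W2) = 1`, and "`g` is a unit at the vertical height-one primes `≠ W2`
  through `x`" (horizontal primes: `g ∣ q ^ n` and `q` is a unit there).
* **`ufd_of_eta_frame`** : `O_x` is a UFD, for every model `O` of the localisation.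
-/
import Fermat.Agent.GL.Reg.TriplePull
import Fermat.Agent.GL.Frame.HeightOneFrame

set_option autoImplicit false

namespace Fermat.Agent.GL.TripleRegAbs

open Fermat.Agent.GL.KrullFrame Fermat.Agent.GL.Frame.HeightOne Fermat.Agent.GL.EtaReg

section Nonunits

variable {F : Type*} [Field F]

theorem add_mem_nonunits' {W : ValuationSubring F} {a b : F} (ha : a ∈ W.nonunits)
    (hb : b ∈ W.nonunits) : a + b ∈ W.nonunits := by
  rw [ValuationSubring.mem_nonunits_iff] at *
  exact Valuation.map_add_lt _ ha hb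

theorem mul_mem_nonunits' {W : ValuationSubring F} {a b : F} (ha : a ∈ W)
    (hb : b ∈ W.nonunits) : a * b ∈ W.nonunits := by
  rw [ValuationSubring.mem_nonunits_iff] at *
  rw [map_mul]
  have h1 : W.valuation a ≤ 1 := (ValuationSubring.valuation_le_one_iff W a).2 ha
  calc W.valuation a * W.valuation b ≤ 1 * W.valuation b := mul_le_mul_left h1 _
    _ = W.valuation b := one_mul _
    _ < 1 := hb

theorem one_notMem_nonunits' (W : ValuationSubring F) : (1 : F) ∉ W.nonunits := by
  rw [ValuationSubring.mem_nonunits_iff, map_one]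
  exact lt_irrefl _

end Nonunits

section Frame

variable {B F : Type*} [CommRing B] [IsDomain B] [Field F] [Algebra B F] [IsFractionRing B F]
  [IsNoetherianRing B] [IsIntegrallyClosed B]

/-- **the integrality input `hPO` from the height-one frame.** -/
theorem dvd_pow_of_vert (x : Ideal B) [x.IsPrime] (P2 : Ideal B) {g c0 q : B} {n : ℕ}
    (hgc : g * c0 = q ^ n) (hq0 : q ≠ 0)
    (W2 : ValuationSubring F) (hP2W : ∀ b ∈ P2, algebraMap B F b ∈ W2.nonunits)
    (he : ∀ z ∈ W2.nonunits, z / algebraMap B F q ∈ W2)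
    (hvert : ∀ p : HtOne B, q ∈ p.1 → p.1 ≤ x →
      (algebraMap B F g)⁻¹ ∈ V1 F p ∨ V1 F p = W2)
    (O : Type*) [CommRing O] [Algebra B O] [IsLocalization.AtPrime O x] [Algebra O F]
    [IsScalarTower B O F] (hinj : Function.Injective (algebraMap O F)) :
    ∀ z ∈ P2.map (algebraMap B O), algebraMap B O g ∣ z ^ n := by
  have hBinj : Function.Injective (algebraMap B F) := IsFractionRing.injective B F
  have hqF : algebraMap B F q ≠ 0 := (map_ne_zero_iff _ hBinj).mpr hq0
  have hgcF : algebraMap B F g * algebraMap B F c0 = algebraMap B F q ^ n := by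
    rw [← map_mul, hgc, map_pow]
  have hgF : algebraMap B F g ≠ 0 := by
    intro h0
    rw [h0, zero_mul] at hgcF
    exact pow_ne_zero n hqF hgcF.symm
  have hV : IsFrame B (V1 (B := B) F) := isFrame_heightOne
  -- elements of `P₂ O` are nonunits of `W2` as soon as `O ⊆ W2`
  have hzn : (∀ o : O, algebraMap O F o ∈ W2) →
      ∀ z ∈ P2.map (algebraMap B O), algebraMap O F z ∈ W2.nonunits := by
    intro hO z hz
    refine Submodule.span_induction (p := fun z _ => algebraMap O F z ∈ W2.nonunits)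
      ?_ ?_ ?_ ?_ hz
    · rintro _ ⟨b, hb, rfl⟩
      rw [← IsScalarTower.algebraMap_apply]
      exact hP2W b hb
    · rw [map_zero, ValuationSubring.mem_nonunits_iff, map_zero]
      exact zero_lt_one
    · intro a b _ _ ha hb
      rw [map_add]
      exact add_mem_nonunits' ha hb
    · intro o a _ ha
      rw [smul_eq_mul, map_mul]
      exact mul_mem_nonunits' (hO o) ha
  intro z hz
  refine dvd_pow_of_forall_over hV x O ?_ hinj ?_
  · rw [← IsScalarTower.algebraMap_apply]
    exact hgF
  intro v hv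
  have hvx : v.1 ≤ x := (over_V1_iff x v).mp hv
  have hOV : ∀ o : O, algebraMap O F o ∈ V1 F v := fun o => hV.algebraMap_loc_mem x O o hv
  rw [← IsScalarTower.algebraMap_apply B O F g]
  by_cases hqv : q ∈ v.1
  · rcases hvert v hqv hvx with hinv | hW
    · rw [div_eq_mul_inv]
      exact (V1 F v).mul_mem _ _ (pow_mem (hOV z) n) hinv
    · have h1 : algebraMap O F z ∈ W2.nonunits := hzn (fun o => hW ▸ hOV o) z hz
      have h2 := he _ h1
      have h3 : algebraMap O F z ^ n / algebraMap B F g =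
          (algebraMap O F z / algebraMap B F q) ^ n * algebraMap B F c0 := by
        rw [div_pow, div_mul_eq_mul_div, div_eq_div_iff hgF (pow_ne_zero n hqF), ← hgcF]
        ring
      rw [h3, hW]
      exact W2.mul_mem _ _ (pow_mem h2 n) (hW ▸ algebraMap_mem_V1 v c0)
  · have hqinv : (algebraMap B F q)⁻¹ ∈ V1 F v := inv_algebraMap_mem_V1 v hqv
    have h3 : algebraMap O F z ^ n / algebraMap B F g =
        algebraMap O F z ^ n * (algebraMap B F c0 * ((algebraMap B F q)⁻¹) ^ n) := by
      rw [inv_pow, ← div_eq_mul_inv, ← mul_div_assoc,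
        div_eq_div_iff hgF (pow_ne_zero n hqF), ← hgcF]
      ring
    rw [h3]
    exact (V1 F v).mul_mem _ _ (pow_mem (hOV z) n)
      ((V1 F v).mul_mem _ _ (algebraMap_mem_V1 v c0) (pow_mem hqinv n))

variable {B' C : Type*} [CommRing B'] [CommRing C] [IsDedekindDomain C]

/-- **REG at a triple point, frame form.**  See the file header. -/
theorem ufd_of_eta_frame
    (rd1 : B' →+* C) (hrd1 : Function.Surjective rd1) (P2' : Ideal B') {J : Ideal C}
    (hJ0 : J ≠ ⊥) {g : B'} {n : ℕ} (hn : n ≠ 0)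
    (hJ : ∀ a ∈ J, ∃ y ∈ P2', rd1 y = a) (hdiv : ∀ z ∈ P2', g ∣ z ^ n)
    (hJsq : ∀ P : Ideal C, P.IsMaximal → J ≤ P → ¬ J ≤ P ^ 2)
    (hIII : ∀ P : Ideal C, P.IsMaximal → J ≤ P → rd1 g ∈ P ^ n) (hg0 : rd1 g ≠ 0)
    (α : B' →+* B) (x : Ideal B) [x.IsPrime]
    (hx1 : ∀ c : B', rd1 c = 0 → α c ∈ x) (hx2 : ∀ y ∈ P2', α y ∈ x)
    {D : Type*} [CommRing D] [IsDedekindDomain D] (rd2 : B →+* D)
    (hrd2 : Function.Surjective rd2)
    (W2 : ValuationSubring F) (hker2 : ∀ b : B, rd2 b = 0 ↔ algebraMap B F b ∈ W2.nonunits)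
    (hP2x : ∀ b : B, algebraMap B F b ∈ W2.nonunits → b ∈ x)
    (hαP : ∀ y ∈ P2', algebraMap B F (α y) ∈ W2.nonunits)
    {q : B'} (hq2 : q ∈ P2') (hq1 : rd1 q = 0) (hαq0 : α q ≠ 0)
    (hgq : algebraMap B F (α g) / algebraMap B F (α q) ^ n ∈ W2)
    (he : ∀ z ∈ W2.nonunits, z / algebraMap B F (α q) ∈ W2)
    (hvert : ∀ p : HtOne B, α q ∈ p.1 → p.1 ≤ x →
      (algebraMap B F (α g))⁻¹ ∈ V1 F p ∨ V1 F p = W2)
    (O : Type*) [CommRing O] [Algebra B O] [IsLocalization.AtPrime O x] :
    UniqueFactorizationMonoid O := by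
  have hBinj : Function.Injective (algebraMap B F) := IsFractionRing.injective B F
  have hqF : algebraMap B F (α q) ≠ 0 := (map_ne_zero_iff _ hBinj).mpr hαq0
  -- the cofactor `c0`
  obtain ⟨c0, hc0⟩ := hdiv q hq2
  have hgc : α g * α c0 = α q ^ n := by rw [← map_mul, ← hc0, map_pow]
  have hαg : α g ≠ 0 := by
    intro h0
    rw [h0, zero_mul] at hgc
    exact pow_ne_zero n hαq0 hgc.symm
  have hrd1c0 : rd1 c0 = 0 := by
    have h1 : rd1 g * rd1 c0 = 0 := by rw [← map_mul, ← hc0, map_pow, hq1, zero_pow hn]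
    exact (mul_eq_zero.mp h1).resolve_left hg0
  -- `α c0 ∈ x ∖ ker rd2`
  have hc0x : α c0 ∈ x := hx1 c0 hrd1c0
  have hc0W : algebraMap B F (α c0) ∉ W2.nonunits := by
    intro hmem
    have h1 := mul_mem_nonunits' hgq hmem
    have h2 : algebraMap B F (α g) / algebraMap B F (α q) ^ n * algebraMap B F (α c0) = 1 := by
      rw [div_mul_eq_mul_div, ← map_mul, hgc, map_pow]
      exact div_self (pow_ne_zero n hqF)
    rw [h2] at h1
    exact one_notMem_nonunits' W2 h1
  -- the node below `x`
  set P : Ideal C := (x.comap α).map rd1 with hPdef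
  have hker : RingHom.ker rd1 ≤ x.comap α := fun c hc => hx1 c hc
  have hPprime : P.IsPrime := Ideal.map_isPrime_of_surjective hrd1 hker
  have hJP : J ≤ P := by
    intro a ha
    obtain ⟨y, hy, rfl⟩ := hJ a ha
    exact Ideal.mem_map_of_mem _ (hx2 y hy)
  have hP0 : P ≠ ⊥ := by
    intro h0
    apply hJ0
    rw [eq_bot_iff, ← h0]
    exact hJP
  have hPmax : P.IsMaximal := hPprime.isMaximal hP0
  -- the vertical prime `P₂ = ker rd2`
  have hDed : IsDedekindDomain (B ⧸ RingHom.ker rd2) :=
    isDedekindDomain_of_ringEquiv (RingHom.quotientKerEquivOfSurjective hrd2)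
  have hlt : RingHom.ker rd2 < x := by
    refine lt_of_le_of_ne (fun b hb => hP2x b ((hker2 b).mp hb)) ?_
    intro heq
    have h1 : α c0 ∈ RingHom.ker rd2 := heq ▸ hc0x
    exact hc0W ((hker2 _).mp h1)
  -- the algebra `O → F`
  have hunit : ∀ s : x.primeCompl, IsUnit (algebraMap B F s) := fun s =>
    IsUnit.mk0 _ ((map_ne_zero_iff _ hBinj).mpr (fun h => s.2 (h ▸ x.zero_mem)))
  let _ : Algebra O F := (IsLocalization.lift (S := O) hunit).toAlgebra
  have hST : IsScalarTower B O F :=
    IsScalarTower.of_algebraMap_eq (fun b => (IsLocalization.lift_eq hunit b).symm)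
  have hinj : Function.Injective (algebraMap O F) := by
    show Function.Injective (IsLocalization.lift (S := O) hunit)
    rw [IsLocalization.lift_injective_iff]
    intro a b
    rw [(IsLocalization.injective O x.primeCompl_le_nonZeroDivisors).eq_iff, hBinj.eq_iff]
  refine ufd_atPrime_of_eta rd1 P2' hn hJ hdiv hPmax (hJsq P hPmax hJP) (hIII P hPmax hJP) hg0
    α x (RingHom.ker rd2) hlt ?_ ?_ hαg O ?_
  · intro c hc
    exact Ideal.mem_map_of_mem _ hc
  · intro y hy
    exact (hker2 _).mpr (hαP y hy)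
  · exact dvd_pow_of_vert x (RingHom.ker rd2) hgc hαq0 W2 (fun b hb => (hker2 b).mp hb) he hvert
      O hinj

end Frame

end Fermat.Agent.GL.TripleRegAbs
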