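/-
GATE-L / L5-III (T2) ASSEMBLY, abstract layer, LOCAL form (helper28): REG AT A TRIPLE POINT from
the thickness element and helper84's pointwise contract `hval` — **no global identification of
`B ⧸ P₂` with a Dedekind ring**.

Level `qM`: `B'`, `rd1 : B' ↠ C` (Dedekind), `P2'`, `J` (node ideal), `g` (eta quotient), `n = 12`,
`q ∈ P2'` (the residue characteristic).  Level `q²M`: `B ⊆ F` a noetherian integrally closed
chart ring, `α : B' → B` the pull-back, `x` a prime of `B` over a node, `p2 : HtOne B` the vertical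
prime of the component `C₂` through `x`.

The pulled-back thickness element `π := α y` (`yⁿ = g c`, `c` a unit at `x`:
`EtaReg.exists_lift_pow_eq`) is a LOCAL GENERATOR of `p2` at `x`:

* `hgen`   : `π` is a uniformiser of `B_{p2}` (`e(p2) = 1` and `(q/π)ⁿ = c0 / c ∈ B_{p2}`);
* `hother` : `π` lies in no other height-one prime through `x` (`g` is a unit at the other
  vertical primes through `x`; `g ∣ qⁿ` and `q` is a unit at the horizontal ones);

so helper47's `LocTypeI.ufd_localization` applies VERBATIM with `𝔭₀ := p2` — the triple point is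
handled by the same theorem as the type I/II points, with the same `hval` producer (helper84
`HvalOfOld.hval_of_old`, `HvalOfOldDedekind.hval_of_old_dedekind` on the component `C₂`).

**`ufd_of_eta_hval`** : `Localization.AtPrime x` is a UFD.
-/
import Fermat.Agent.GL.Reg.EtaThick
import Fermat.Agent.GL.Frame.LocTypeI

set_option autoImplicit false

namespace Fermat.Agent.GL.TripleRegHval

open Fermat.Agent.GL.KrullFrame Fermat.Agent.GL.Frame.HeightOne Fermat.Agent.GL.EtaReg
open Fermat.Agent.GL.Frame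

/-- valuation subrings are root closed -/
theorem mem_of_pow_mem' {F : Type*} [Field F] {W : ValuationSubring F} {z : F} {n : ℕ}
    (hn : n ≠ 0) (h : z ^ n ∈ W) : z ∈ W := by
  rw [← ValuationSubring.valuation_le_one_iff] at h ⊢
  rw [map_pow] at h
  exact (pow_le_one_iff hn).mp h

variable {F : Type*} [Field F] {B : Subring F} [IsFractionRing B F] [IsNoetherianRing B]
  [IsIntegrallyClosed B]
variable {B' C : Type*} [CommRing B'] [CommRing C] [IsDedekindDomain C]

/-- **REG at a triple point, local (`hval`) form.**  See the file header. -/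
theorem ufd_of_eta_hval
    (rd1 : B' →+* C) (hrd1 : Function.Surjective rd1) (P2' : Ideal B') {J : Ideal C}
    (hJ0 : J ≠ ⊥) {g : B'} {n : ℕ} (hn : n ≠ 0)
    (hJ : ∀ a ∈ J, ∃ y ∈ P2', rd1 y = a) (hdiv : ∀ z ∈ P2', g ∣ z ^ n)
    (hJsq : ∀ P : Ideal C, P.IsMaximal → J ≤ P → ¬ J ≤ P ^ 2)
    (hIII : ∀ P : Ideal C, P.IsMaximal → J ≤ P → rd1 g ∈ P ^ n) (hg0 : rd1 g ≠ 0)
    (α : B' →+* B) (x : Ideal B) [x.IsPrime]
    (hx1 : ∀ c : B', rd1 c = 0 → α c ∈ x) (hx2 : ∀ y ∈ P2', α y ∈ x)
    (p2 : HtOne B) (hp2x : p2.1 ≤ x) (hαP : ∀ y ∈ P2', α y ∈ p2.1)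
    {q : B'} (hq2 : q ∈ P2') (hαq0 : α q ≠ 0)
    (he : ∀ z ∈ (V1 F p2).nonunits, z / algebraMap B F (α q) ∈ V1 F p2)
    (hvert : ∀ p : HtOne B, α q ∈ p.1 → p.1 ≤ x → p ≠ p2 →
      (algebraMap B F (α g))⁻¹ ∈ V1 F p)
    (hval : ∀ a b : B, ∃ c s : B, s ∉ x ∧ (s * a - c * b ∈ p2.1 ∨ s * b - c * a ∈ p2.1)) :
    UniqueFactorizationMonoid (Localization.AtPrime x) := by
  have hBinj : Function.Injective (algebraMap B F) := IsFractionRing.injective B F
  have hne : ∀ {b : B}, b ≠ 0 → algebraMap B F b ≠ 0 := fun hb =>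
    (map_ne_zero_iff _ hBinj).mpr hb
  -- the cofactor `c0`
  obtain ⟨c0, hc0⟩ := hdiv q hq2
  have hgc : α g * α c0 = α q ^ n := by rw [← map_mul, ← hc0, map_pow]
  have hαg : α g ≠ 0 := by
    intro h0
    rw [h0, zero_mul] at hgc
    exact pow_ne_zero n hαq0 hgc.symm
  -- the node below `x`
  set P : Ideal C := (x.comap α).map rd1 with hPdef
  have hker : RingHom.ker rd1 ≤ x.comap α := fun c hc => hx1 c hc
  have hPprime : P.IsPrime := Ideal.map_isPrime_of_surjective hrd1 hker
  have hJP : J ≤ P := by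
    intro a ha
    obtain ⟨y, hy, rfl⟩ := hJ a ha
    exact Ideal.mem_map_of_mem _ (hx2 y hy)
  have hP0 : P ≠ ⊥ := by
    intro h0
    apply hJ0
    rw [eq_bot_iff, ← h0]
    exact hJP
  have hPmax : P.IsMaximal := hPprime.isMaximal hP0
  -- the thickness element
  obtain ⟨y, hy, c, hyc, hc⟩ := exists_lift_pow_eq rd1 P2' hJ hdiv hPmax (hJsq P hPmax hJP)
    (hIII P hPmax hJP) hg0
  have hyc' : α y ^ n = α g * α c := by rw [← map_pow, hyc, map_mul]
  have hcx : α c ∉ x := fun h => hc (Ideal.mem_map_of_mem _ h)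
  have hαc0 : α c ≠ 0 := fun h => hcx (h ▸ x.zero_mem)
  have hπne : α y ≠ 0 := by
    intro h0
    rw [h0, zero_pow hn] at hyc'
    exact mul_ne_zero hαg hαc0 hyc'.symm
  have hycF : algebraMap B F (α y) ^ n = algebraMap B F (α g) * algebraMap B F (α c) := by
    rw [← map_pow, hyc', map_mul]
  have hgcF : algebraMap B F (α g) * algebraMap B F (α c0) = algebraMap B F (α q) ^ n := by
    rw [← map_mul, hgc, map_pow]
  refine LocTypeI.ufd_localization x hp2x hπne (hαP y hy) ?_ ?_ hval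
  · -- `hgen`
    intro f hf
    have h1 : algebraMap B F f ∈ (V1 F p2).nonunits :=
      (algebraMap_mem_nonunits_V1_iff p2 f).2 hf
    have h2 := he _ h1
    have h3 : algebraMap B F (α q) / algebraMap B F (α y) ∈ V1 F p2 := by
      apply mem_of_pow_mem' hn
      have e1 : (algebraMap B F (α q) / algebraMap B F (α y)) ^ n =
          algebraMap B F (α c0) * (algebraMap B F (α c))⁻¹ := by
        rw [div_pow, hycF, ← hgcF, ← div_eq_mul_inv,
          div_eq_div_iff (mul_ne_zero (hne hαg) (hne hαc0)) (hne hαc0)]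
        ring
      rw [e1]
      exact (V1 F p2).mul_mem _ _ (algebraMap_mem_V1 p2 _)
        (inv_algebraMap_mem_V1 p2 (fun h => hcx (hp2x h)))
    have h4 : algebraMap B F f / algebraMap B F (α y) ∈ V1 F p2 := by
      have e2 : algebraMap B F f / algebraMap B F (α y) =
          algebraMap B F f / algebraMap B F (α q) *
            (algebraMap B F (α q) / algebraMap B F (α y)) := by
        rw [div_mul_div_comm, mul_comm, mul_div_mul_left _ _ (hne hαq0)]
      rw [e2]
      exact (V1 F p2).mul_mem _ _ h2 h3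
    obtain ⟨s, hs, a, ha⟩ := (mem_V1_iff p2).1 h4
    refine ⟨s, hs, a, ?_⟩
    apply hBinj
    rw [map_mul, map_mul, ha, Algebra.smul_def, mul_comm (algebraMap B F (α y)),
      mul_assoc, div_mul_cancel₀ _ (hne hπne)]
  · -- `hother`
    intro 𝔮 h𝔮 h𝔮x hmem
    have h1 : α g * α c ∈ 𝔮.1 := hyc' ▸ Ideal.pow_mem_of_mem 𝔮.1 hmem n (Nat.pos_of_ne_zero hn)
    rcases 𝔮.2.1.mem_or_mem h1 with h2 | h2
    · have hq𝔮 : α q ∈ 𝔮.1 := by
        have h3 : α q ^ n ∈ 𝔮.1 := hgc ▸ 𝔮.1.mul_mem_right _ h2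
        exact 𝔮.2.1.mem_of_pow_mem n h3
      exact not_inv_algebraMap_mem_V1 𝔮 h2 hαg (hvert 𝔮 hq𝔮 h𝔮x h𝔮)
    · exact hcx (h𝔮x h2)

end Fermat.Agent.GL.TripleRegHval
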