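/-
GATE-L / L5-III (T2) ASSEMBLY, concrete layer over `K₀` (helper28): **REG AT A TRIPLE POINT** of
the chart ring `B` of level `N = N' ℓ ℓ` (`ℓ ∤ N'`, `A | ℓ`), in the frame language.

`TripleRegAbs.ufd_of_eta_frame` instantiated at

* level `N' ℓ` : `B' := BRingK0 N' ℓ A h` (helper96), `rd1 := redC1K0`, `P2' := P2K0`, `J := J'`
  (`B~ = gluedAlg Ψ J'`), `g := e0` the `K₀`-model of `Δ(z)/Δ(ℓ z)` (`EtaInst.exists_etaK0`),
  `n = 12`, `q := ℓ`;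
* level `N' ℓ ℓ` : `α := alphaK0 A (N' ℓ) ℓ` (helper67), `W2 := (redData2QK0 A N hQ).Rw`.

Everything about level `N' ℓ` is discharged from landed files (`EtaInst`, helper96 `BRingK0`,
helper65 `EtaSharp`), except (III) (`hIII`, producers: helper63 `thick_series` / helper65
`FixCNode`).  The level-`N' ℓ ℓ` facts used are the three `α`-rows of the table (helper67), `e₂ = 1`
(helper45 `exists_eq_q_mul₂Q`), helper16's `etaQ` Gauss facts.  What remains as HYPOTHESES is the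
frame data of the chart ring `B` at the point `x`:

* `hαB`  : `α (B_R) ⊆ B`;
* `hx1 hx2` : `x` lies over a node (`α (ker red₁) ⊆ x`, `α (P'₂) ⊆ x`) — helper47 `triple_of_ss`;
* `hP2x` : the vertical prime `P₂ = {w₂ > 0}` lies in `x`;
* `rd2 hrd2 hker2` : `B ⧸ P₂ ≅ D` Dedekind (the coordinate ring of `C₂`);
* `hvert` : the height-one primes over `ℓ` through `x` are among `w₁, w₂, w₃` (helper80).

**`ufd_at_triple`** : `O_x` is a UFD (every model `O`), whence `(LOC-gen)` by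
helper47 `Kummer.exists_kummer_datum_of_ufd` (**`exists_kummer_at_triple`**).
-/
import Fermat.Agent.GL.Reg.TripleRegAbs
import Fermat.Agent.GL.Reg.TripleRegHval
import Fermat.Agent.GL.Reg.EtaInst
import Fermat.Agent.GL.Red.BRingK0
import Fermat.Agent.GL.Table.RowsK0W3
import Fermat.Agent.GL.Thick.EtaSharp
import Fermat.Agent.GL.Frame.KummerDatum

set_option autoImplicit false
set_option linter.unusedSectionVars false

noncomputable section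

namespace Fermat.Agent.GL.TripleRegK0

open HahnSeries ModularCurve IsLocalRing Polynomial
open Fermat.Agent.S24 Fermat.Agent.GJ.J1 Fermat.Agent.GJ.J1.Val Fermat.Agent.S28
open Fermat.Agent.GK.AL Fermat.Agent.GL.AL Fermat.Agent.GK.QS Fermat.Agent.GK.FrobGlue Fermat.Agent.GL.Eta
open Fermat.Agent.GL.Thick Fermat.Agent.GL.SmallQ
open Fermat.Agent.GL.Val.GaussK0 Fermat.Agent.GL.Val.SecondK0 Fermat.Agent.GL.Val.SecondK0Hall
open Fermat.Agent.GL.Val.ThirdK0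
open Fermat.Agent.GL.Table.K0
open Fermat.Agent.GL.Frame.HeightOne Fermat.Agent.GL.Frame

variable {N' : ℕ} [NeZero N'] {ℓ : ℕ} [Fact ℓ.Prime] [NeZero ℓ]
variable {A : ValuationSubring Kbar} (h : ExactDvd ℓ (N' * ℓ))
variable (hQ : HallDvd (ℓ ^ 2) (N' * ℓ * ℓ))
variable (hℓN : ¬ ℓ ∣ N') (hA : A.LiesOverPrime ℓ)

local notation "kA" => IsLocalRing.ResidueField A
local notation "F0" => modularFunctionFieldFullC (K0 A) (N' * ℓ)
local notation "F1" => modularFunctionFieldFullC (K0 A) (N' * ℓ * ℓ)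
local notation "BR" => BRingK0.BRingK0 N' ℓ A h

/-! ### Level `N' ℓ` -/

/-- helper96's `P2K0` and `EtaInst.P2K0` are the same ideal -/
theorem mem_etaInst_P2K0 {z : BR} (hz : z ∈ BRingK0.P2K0 h hℓN hA) :
    (z : EtaInst.BRingK0 N' ℓ A h) ∈ EtaInst.P2K0 N' ℓ A h := by
  have h0 : BRingK0.redC2K0 h hℓN hA z = 0 := hz
  have h1 : rho2 N' ℓ A h (BRingK0.toBRing N' ℓ A h z) = 0 := by
    rw [← BRingK0.cVal_redC2K0 h hℓN hA, h0, map_zero]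
  exact h1

include hA in
/-- `hdiv` on helper96's objects -/
theorem eta_dvd_pow' (e0 : BR) (he0 : mapK0Bar A (N' * ℓ) (e0 : F0) = etaQ (N' * ℓ) ℓ h.dvd)
    {z : BR} (hz : z ∈ BRingK0.P2K0 h hℓN hA) : e0 ∣ z ^ 12 :=
  EtaInst.eta_dvd_pow hA (h := h) e0 he0 (mem_etaInst_P2K0 h hℓN hA hz)

include hA in
/-- the `K₀`-rational model of `g` in helper96's ring -/
theorem exists_etaBR : ∃ e0 : BR, mapK0Bar A (N' * ℓ) (e0 : F0) = etaQ (N' * ℓ) ℓ h.dvd := by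
  obtain ⟨e0, he0⟩ := EtaInst.exists_etaK0 (N' := N') (ℓ := ℓ) (A := A) (h := h) hA
  exact ⟨⟨(e0 : F0), e0.2⟩, he0⟩

/-- `red₁ g = pH(j~)` on helper96's objects -/
theorem redC1K0_eta (e0 : BR) (he0 : mapK0Bar A (N' * ℓ) (e0 : F0) = etaQ (N' * ℓ) ℓ h.dvd) :
    BRingK0.redC1K0 h hℓN hA e0 =
      aeval (jtC N' A) (@ssPolyAll ℓ _ kA _ (charP_residue A Fact.out hA)) :=
  EtaInst.rd1K0_eta hℓN hA (h := h) e0 he0

/-- `red₁ g ≠ 0` on helper96's objects -/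
theorem redC1K0_eta_ne_zero (e0 : BR)
    (he0 : mapK0Bar A (N' * ℓ) (e0 : F0) = etaQ (N' * ℓ) ℓ h.dvd) :
    BRingK0.redC1K0 h hℓN hA e0 ≠ 0 :=
  EtaInst.rd1K0_eta_ne_zero hℓN hA (h := h) e0 he0

include hA in
/-- `CRing N' A` has characteristic `ℓ` -/
theorem natCast_CRing_eq_zero : ((ℓ : ℕ) : CRing N' A) = 0 := by
  have hc : CharP kA ℓ := charP_residue A Fact.out hA
  have h1 : ((ℓ : ℕ) : CRing N' A) = algebraMap kA (CRing N' A) ((ℓ : ℕ) : kA) := by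
    rw [map_natCast]
  rw [h1, CharP.cast_eq_zero, map_zero]

theorem natCast_mem_P2K0 : ((ℓ : ℕ) : BR) ∈ BRingK0.P2K0 h hℓN hA := by
  rw [BRingK0.mem_P2K0, map_natCast]
  exact natCast_CRing_eq_zero hA

theorem redC1K0_natCast : BRingK0.redC1K0 h hℓN hA ((ℓ : ℕ) : BR) = 0 := by
  rw [map_natCast]
  exact natCast_CRing_eq_zero hA

/-- `(ℓ : F1) ≠ 0` -/
theorem natCast_ne_zero_F1 : ((ℓ : ℕ) : F1) ≠ 0 := by
  have h1 : ((ℓ : ℕ) : F1) = algebraMap (K0 A) F1 ((ℓ : ℕ) : K0 A) := by rw [map_natCast]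
  rw [h1]
  refine (map_ne_zero_iff _ (algebraMap (K0 A) F1).injective).mpr ?_
  exact Nat.cast_ne_zero.mpr (NeZero.ne ℓ)

/-! ### The three `α`-rows at the eta quotient -/

section Rows

variable (e0 : modularFunctionFieldFullC (K0 A) (N' * ℓ))
  (he0 : mapK0Bar A (N' * ℓ) e0 = etaQ (N' * ℓ) ℓ h.dvd)
include he0

/-- `(α g)⁻¹ ∈ R_{w₁}` -/
theorem alpha_eta_inv_mem_Rw1 :
    (alphaK0 A (N' * ℓ) ℓ e0)⁻¹ ∈ RwK0 A (N' * ℓ * ℓ) := by
  rw [← map_inv₀, alphaK0_mem_RwK0_iff, mem_Rw1K0_iff, map_inv₀, he0]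
  exact etaQ_inv_mem_Rw1 (N' * ℓ) A ℓ h.dvd

/-- `(α g)⁻¹ ∈ R_{w₃}` -/
theorem alpha_eta_inv_mem_Rw3 :
    (alphaK0 A (N' * ℓ) ℓ e0)⁻¹ ∈ Rw3K0 A (N' * ℓ * ℓ) ℓ := by
  rw [← map_inv₀, alphaK0_mem_Rw3K0_iff A (Fact.out : ℓ.Prime), mem_Rw1K0_iff, map_inv₀, he0]
  exact etaQ_inv_mem_Rw1 (N' * ℓ) A ℓ h.dvd

/-- `α g / ℓ ^ 12 ∈ R_{w₂}` -/
theorem alpha_eta_div_mem_Rw2 :
    alphaK0 A (N' * ℓ) ℓ e0 / ((ℓ : ℕ) : F1) ^ 12 ∈ (redData2QK0 A (N' * ℓ * ℓ) hQ).Rw := by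
  have h1 : alphaK0 A (N' * ℓ) ℓ e0 / ((ℓ : ℕ) : F1) ^ 12 =
      alphaK0 A (N' * ℓ) ℓ (e0 / ((ℓ : ℕ) : F0) ^ 12) := by
    rw [map_div₀, map_pow, map_natCast]
  rw [h1, alphaK0_mem_Rw2QK0_iff A N' hQ h, mem_Rw2K0_iff, map_div₀, map_pow, map_natCast, he0]
  exact etaQ_div_mem_Rw2 A h

end Rows

include hA in
/-- `e₂ = 1` at level `N' ℓ ℓ` over `K₀`, division form -/
theorem div_mem_Rw2Q_of_mem_nonunits {z : F1}
    (hz : z ∈ (redData2QK0 A (N' * ℓ * ℓ) hQ).Rw.nonunits) :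
    z / ((ℓ : ℕ) : F1) ∈ (redData2QK0 A (N' * ℓ * ℓ) hQ).Rw := by
  obtain ⟨y, hy, hzy⟩ := exists_eq_q_mul₂Q A (N' * ℓ * ℓ) hQ (Fact.out : ℓ.Prime) hA z hz
  have hq : ((q0 A ℓ : R0 A) : K0 A) = ((ℓ : ℕ) : K0 A) :=
    ι0_injective A (by rw [ι0_q0, map_natCast])
  rw [hzy, hq, map_natCast, mul_div_cancel_left₀ _ (natCast_ne_zero_F1 (A := A))]
  exact hy

/-! ### The theorem -/

section Main

variable {B : Subring (modularFunctionFieldFullC (K0 A) (N' * ℓ * ℓ))}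
  [IsFractionRing B (modularFunctionFieldFullC (K0 A) (N' * ℓ * ℓ))] [IsNoetherianRing B]
  [IsIntegrallyClosed B]

set_option synthInstance.maxHeartbeats 200000

/-- the pull-back `α : B_R → B` -/
def alphaB' (hαB : ∀ x0 : BR, alphaK0 A (N' * ℓ) ℓ (x0 : F0) ∈ B) : BR →+* B :=
  (((alphaK0 A (N' * ℓ) ℓ : F0 →ₐ[K0 A] F1) : F0 →+* F1).comp
    (BRingK0.BRingK0 N' ℓ A h).subtype).codRestrict B hαB

theorem coe_alphaB' (hαB : ∀ x0 : BR, alphaK0 A (N' * ℓ) ℓ (x0 : F0) ∈ B) (x0 : BR) :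
    ((alphaB' h hαB x0 : B) : F1) = alphaK0 A (N' * ℓ) ℓ (x0 : F0) := rfl

set_option maxHeartbeats 400000 in
/-- **REG AT A TRIPLE POINT over `K₀`**: `O_x` is a UFD. -/
theorem ufd_at_triple (h2 : ℓ = 2 → 3 ∣ N') (h3 : ℓ = 3 → 2 ∣ N')
    {J' : Ideal (CRing N' A)} (hfix : fixIdeal (psiC N' ℓ A hℓN hA) ≤ J')
    (hJ' : BT N' ℓ A h = gluedAlg (psiC N' ℓ A hℓN hA) J')
    (hIII : ∀ P : Ideal (CRing N' A), P.IsMaximal → J' ≤ P →
      aeval (jtC N' A) (@ssPolyAll ℓ _ kA _ (charP_residue A Fact.out hA)) ∈ P ^ 12)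
    (hαB : ∀ x0 : BR, alphaK0 A (N' * ℓ) ℓ (x0 : F0) ∈ B)
    (x : Ideal B) [x.IsPrime]
    (hx1 : ∀ x0 : BR, BRingK0.redC1K0 h hℓN hA x0 = 0 → alphaB' h hαB x0 ∈ x)
    (hx2 : ∀ x0 ∈ BRingK0.P2K0 h hℓN hA, alphaB' h hαB x0 ∈ x)
    (hP2x : ∀ b : B, (b : F1) ∈ (redData2QK0 A (N' * ℓ * ℓ) hQ).Rw.nonunits → b ∈ x)
    {D : Type*} [CommRing D] [IsDedekindDomain D] (rd2 : B →+* D)
    (hrd2 : Function.Surjective rd2)
    (hker2 : ∀ b : B, rd2 b = 0 ↔ (b : F1) ∈ (redData2QK0 A (N' * ℓ * ℓ) hQ).Rw.nonunits)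
    (hvert : ∀ p : HtOne B, ((ℓ : ℕ) : B) ∈ p.1 → p.1 ≤ x →
      V1 F1 p = RwK0 A (N' * ℓ * ℓ) ∨ V1 F1 p = (redData2QK0 A (N' * ℓ * ℓ) hQ).Rw ∨
        V1 F1 p = Rw3K0 A (N' * ℓ * ℓ) ℓ)
    (O : Type*) [CommRing O] [Algebra B O] [IsLocalization.AtPrime O x] :
    UniqueFactorizationMonoid O := by
  have hD : IsDedekindDomain (CRing N' A) :=
    Fermat.Agent.GK.SS.Modular.isDedekindDomain_CRing N' ℓ A hA
  obtain ⟨e0, he0⟩ := exists_etaBR h hA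
  -- `J' ≠ ⊥`
  have hJ0 : J' ≠ ⊥ := by
    intro h0
    exact fixIdeal_ne_bot (psiC N' ℓ A hℓN hA)
      (Fermat.Agent.GK.SS.Modular.not_isField_CRing N' A) (Fact.out : ℓ.Prime).two_le
      (exists_pow_eq_psiC N' ℓ A hℓN hA) (le_bot_iff.1 (h0 ▸ hfix))
  have hαℓ : alphaB' h hαB ((ℓ : ℕ) : BR) = ((ℓ : ℕ) : B) := map_natCast _ _
  have hcoe : ∀ b : B, algebraMap B F1 b = (b : F1) := fun _ => rfl
  refine TripleRegAbs.ufd_of_eta_frame (F := F1) (BRingK0.redC1K0 h hℓN hA)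
    (BRingK0.redC1K0_surjective h hℓN hA h2 h3) (BRingK0.P2K0 h hℓN hA) hJ0
    (g := e0) (n := 12) (by norm_num)
    (fun a ha => BRingK0.exists_mem_P2K0_redC1K0_eq h hℓN hA hJ' ha)
    (fun z hz => eta_dvd_pow' h hℓN hA e0 he0 hz)
    (fun P hP _ => not_ideal_le_sq hℓN hA hfix P hP)
    ?_ (redC1K0_eta_ne_zero h hℓN hA e0 he0)
    (alphaB' h hαB) x hx1 hx2 rd2 hrd2 (redData2QK0 A (N' * ℓ * ℓ) hQ).Rw hker2 hP2x ?_
    (q := ((ℓ : ℕ) : BR)) (natCast_mem_P2K0 h hℓN hA) (redC1K0_natCast h hℓN hA) ?_ ?_ ?_ ?_ O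
  · -- (III)
    intro P hP hJP
    have h1 := hIII P hP hJP
    rw [← redC1K0_eta h hℓN hA e0 he0] at h1
    exact h1
  · -- `α (P'₂) ⊆ {w₂ > 0}`
    intro y hy
    rw [hcoe, coe_alphaB']
    have h1 := (BRingK0.mem_P2K0_iff h hℓN hA).1 hy
    exact (mem_nonunits_of_comap ((alphaK0 A (N' * ℓ) ℓ : F0 →ₐ[K0 A] F1) : F0 →+* F1) _ _
      (fun z => (alphaK0_mem_Rw2QK0_iff A N' hQ h z).symm) _).1 h1
  · -- `α ℓ ≠ 0`
    rw [hαℓ]
    intro h0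
    apply natCast_ne_zero_F1 (N' := N') (ℓ := ℓ) (A := A)
    have := congrArg (fun b : B => (b : F1)) h0
    simpa using this
  · -- `α g / ℓ ^ 12 ∈ W2`
    rw [hcoe, hcoe, hαℓ, coe_alphaB']
    simpa using alpha_eta_div_mem_Rw2 h hQ (e0 : F0) he0
  · -- `e₂ = 1`
    intro z hz
    rw [hcoe, hαℓ]
    simpa using div_mem_Rw2Q_of_mem_nonunits hQ hA hz
  · -- the vertical primes through `x`
    intro p hp hpx
    rw [hαℓ] at hp
    rw [hcoe, coe_alphaB']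
    rcases hvert p hp hpx with h1 | h1 | h1
    · left
      rw [h1]
      exact alpha_eta_inv_mem_Rw1 h (e0 : F0) he0
    · right
      exact h1
    · left
      rw [h1]
      exact alpha_eta_inv_mem_Rw3 h (e0 : F0) he0

set_option maxHeartbeats 400000 in
/-- **REG AT A TRIPLE POINT over `K₀`, local (`hval`) form**: the frame data are the height-one
prime `p2` of the component `C₂` (`V1 F p2 = R_{w₂}`), "the other vertical primes through `x` are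
`w₁, w₃`", and helper84's pointwise `hval` at `(x, p2)`. -/
theorem ufd_at_triple_hval (h2 : ℓ = 2 → 3 ∣ N') (h3 : ℓ = 3 → 2 ∣ N')
    {J' : Ideal (CRing N' A)} (hfix : fixIdeal (psiC N' ℓ A hℓN hA) ≤ J')
    (hJ' : BT N' ℓ A h = gluedAlg (psiC N' ℓ A hℓN hA) J')
    (hIII : ∀ P : Ideal (CRing N' A), P.IsMaximal → J' ≤ P →
      aeval (jtC N' A) (@ssPolyAll ℓ _ kA _ (charP_residue A Fact.out hA)) ∈ P ^ 12)
    (hαB : ∀ x0 : BR, alphaK0 A (N' * ℓ) ℓ (x0 : F0) ∈ B)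
    (x : Ideal B) [x.IsPrime]
    (hx1 : ∀ x0 : BR, BRingK0.redC1K0 h hℓN hA x0 = 0 → alphaB' h hαB x0 ∈ x)
    (hx2 : ∀ x0 ∈ BRingK0.P2K0 h hℓN hA, alphaB' h hαB x0 ∈ x)
    (p2 : HtOne B) (hp2 : V1 F1 p2 = (redData2QK0 A (N' * ℓ * ℓ) hQ).Rw) (hp2x : p2.1 ≤ x)
    (hvert : ∀ p : HtOne B, ((ℓ : ℕ) : B) ∈ p.1 → p.1 ≤ x → p ≠ p2 →
      V1 F1 p = RwK0 A (N' * ℓ * ℓ) ∨ V1 F1 p = Rw3K0 A (N' * ℓ * ℓ) ℓ)
    (hval : ∀ a b : B, ∃ c s : B, s ∉ x ∧ (s * a - c * b ∈ p2.1 ∨ s * b - c * a ∈ p2.1)) :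
    UniqueFactorizationMonoid (Localization.AtPrime x) := by
  have hD : IsDedekindDomain (CRing N' A) :=
    Fermat.Agent.GK.SS.Modular.isDedekindDomain_CRing N' ℓ A hA
  obtain ⟨e0, he0⟩ := exists_etaBR h hA
  have hJ0 : J' ≠ ⊥ := by
    intro h0
    exact fixIdeal_ne_bot (psiC N' ℓ A hℓN hA)
      (Fermat.Agent.GK.SS.Modular.not_isField_CRing N' A) (Fact.out : ℓ.Prime).two_le
      (exists_pow_eq_psiC N' ℓ A hℓN hA) (le_bot_iff.1 (h0 ▸ hfix))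
  have hαℓ : alphaB' h hαB ((ℓ : ℕ) : BR) = ((ℓ : ℕ) : B) := map_natCast _ _
  have hcoe : ∀ b : B, algebraMap B F1 b = (b : F1) := fun _ => rfl
  refine TripleRegHval.ufd_of_eta_hval (F := F1) (BRingK0.redC1K0 h hℓN hA)
    (BRingK0.redC1K0_surjective h hℓN hA h2 h3) (BRingK0.P2K0 h hℓN hA) hJ0
    (g := e0) (n := 12) (by norm_num)
    (fun a ha => BRingK0.exists_mem_P2K0_redC1K0_eq h hℓN hA hJ' ha)
    (fun z hz => eta_dvd_pow' h hℓN hA e0 he0 hz)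
    (fun P hP _ => not_ideal_le_sq hℓN hA hfix P hP)
    ?_ (redC1K0_eta_ne_zero h hℓN hA e0 he0)
    (alphaB' h hαB) x hx1 hx2 p2 hp2x ?_
    (q := ((ℓ : ℕ) : BR)) (natCast_mem_P2K0 h hℓN hA) ?_ ?_ ?_ hval
  · -- (III)
    intro P hP hJP
    have h1 := hIII P hP hJP
    rw [← redC1K0_eta h hℓN hA e0 he0] at h1
    exact h1
  · -- `α (P'₂) ⊆ p2`
    intro y hy
    rw [← algebraMap_mem_nonunits_V1_iff (F := F1) p2, hp2, hcoe, coe_alphaB']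
    have h1 := (BRingK0.mem_P2K0_iff h hℓN hA).1 hy
    exact (mem_nonunits_of_comap ((alphaK0 A (N' * ℓ) ℓ : F0 →ₐ[K0 A] F1) : F0 →+* F1) _ _
      (fun z => (alphaK0_mem_Rw2QK0_iff A N' hQ h z).symm) _).1 h1
  · -- `α ℓ ≠ 0`
    rw [hαℓ]
    intro h0
    apply natCast_ne_zero_F1 (N' := N') (ℓ := ℓ) (A := A)
    have := congrArg (fun b : B => (b : F1)) h0
    simpa using this
  · -- `e₂ = 1`
    intro z hz
    rw [hp2] at hz ⊢
    rw [hcoe, hαℓ]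
    simpa using div_mem_Rw2Q_of_mem_nonunits hQ hA hz
  · -- the other vertical primes through `x`
    intro p hp hpx hne
    rw [hαℓ] at hp
    rw [hcoe, coe_alphaB']
    rcases hvert p hp hpx hne with h1 | h1
    · rw [h1]
      exact alpha_eta_inv_mem_Rw1 h (e0 : F0) he0
    · rw [h1]
      exact alpha_eta_inv_mem_Rw3 h (e0 : F0) he0

/-- **(LOC-gen) at a triple point** = the `hloc` binder of helper46's `H4Arm.h4_arm` at the point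
`x`: from the UFD property (either `ufd_at_triple` or `ufd_at_triple_hval`) and `m ∣ div u` at the
height-one primes through `x` (helper47 `Kummer.exists_kummer_datum_of_ufd`). -/
theorem exists_kummer_of_ufd (x : Ideal B) [x.IsPrime]
    (hufd : UniqueFactorizationMonoid (Localization.AtPrime x)) (m : ℕ) (u : F1) (hu : u ≠ 0)
    (hord : ∀ 𝔭 : HtOne B, 𝔭.1 ≤ x → ∃ z : F1, z ≠ 0 ∧ Kummer.UnitAt 𝔭 (u * z ^ m)) :
    ∃ g : F1, ∃ c s : B, c ∉ x ∧ s ∉ x ∧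
      g ^ m * u * algebraMap B F1 s = algebraMap B F1 c :=
  Kummer.exists_kummer_datum_of_ufd x (Localization.AtPrime x) m u hu hord

end Main

end Fermat.Agent.GL.TripleRegK0
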